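/-
S56 (G2)/(R), leaf E1: Moebius weights on the poset of cyclic subgroups.  Mathlib only.
-/
import Mathlib

set_option autoImplicit false

namespace Fermat.Agent.S56.G2

open scoped Classical in
/-- abstract form: on a finite partial order, solve `m a = w a - ∑_{b > a} m b` if `P a`, else `0`. -/
theorem Weights_exists_rec {α : Type} [PartialOrder α] [Fintype α] (P : α → Prop) :
    ∃ m : α → ℚ, ∀ a, m a = if P a then 1 - ∑ b, (if a < b then m b else 0) else 0 := by
  have hwf : WellFounded ((· > ·) : α → α → Prop) := wellFounded_gt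
  let F : (a : α) → ((b : α) → b > a → ℚ) → ℚ := fun a ih =>
    if P a then 1 - ∑ b, (if h : a < b then ih b h else 0) else 0
  refine ⟨hwf.fix F, fun a => ?_⟩
  rw [hwf.fix_eq]
  simp only [F, dite_eq_ite]

open scoped Classical in
/-- (E1) **Möbius weights on the poset of cyclic subgroups.**
There are rational weights `m H`, supported on cyclic subgroups, with `∑_{H ∋ γ} m H = 1` for every `γ`.
Proof: solve `m H = if IsCyclic H then 1 - ∑_{H' > H} m H' else 0` by well-founded recursion on `>` (`Subgroup Γ` is
finite: `wellFounded_gt`, `WellFounded.fix`, `WellFounded.fix_eq`); then for `γ`: `{H | γ ∈ H} = {H | zpowers γ ≤ H}`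
(`Subgroup.zpowers_le`) `= {zpowers γ} ∪ {H | zpowers γ < H}` and `zpowers γ` is cyclic. -/
theorem exists_weights (Γ : Type) [Group Γ] [Finite Γ] [Fintype (Subgroup Γ)] :
    ∃ m : Subgroup Γ → ℚ, (∀ H, m H ≠ 0 → IsCyclic H) ∧
      ∀ γ : Γ, ∑ H : Subgroup Γ, (if γ ∈ H then m H else 0) = 1 := by
  obtain ⟨m, hm⟩ := Weights_exists_rec (fun H : Subgroup Γ => IsCyclic H)
  refine ⟨m, fun H hH => ?_, fun γ => ?_⟩
  · by_contra hcon
    rw [hm H, if_neg hcon] at hH
    exact hH rfl
  · have h1 := hm (Subgroup.zpowers γ)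
    rw [if_pos (inferInstance : IsCyclic (Subgroup.zpowers γ))] at h1
    have h2 : ∀ H : Subgroup Γ, (if γ ∈ H then m H else 0) =
        (if H = Subgroup.zpowers γ then m H else 0) +
          (if Subgroup.zpowers γ < H then m H else 0) := by
      intro H
      by_cases hγ : γ ∈ H
      · have hle : Subgroup.zpowers γ ≤ H := (Subgroup.zpowers_le).2 hγ
        rw [if_pos hγ]
        rcases hle.eq_or_lt with h | h
        · rw [if_pos h.symm, if_neg (by rw [h]; exact lt_irrefl _), add_zero]
        · rw [if_neg h.ne', if_pos h, zero_add]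
      · rw [if_neg hγ, if_neg, if_neg, add_zero]
        · intro h
          exact hγ ((Subgroup.zpowers_le).1 h.le)
        · rintro rfl
          exact hγ (Subgroup.mem_zpowers γ)
    simp only [h2]
    rw [Finset.sum_add_distrib, Finset.sum_ite_eq' Finset.univ, if_pos (Finset.mem_univ _), h1]
    ring

end Fermat.Agent.S56.G2
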