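/-
S56 (G2)/(R), leaf E: the combinatorial form of Artin's induction theorem.  Mathlib only, pure finite group
combinatorics (no representations).
-/
import Fermat.Agent.S56.G2.Rep.Weights

set_option autoImplicit false

namespace Fermat.Agent.S56.G2

/-- (E2) fixed points of `g` on `Γ/H`: `|H| · #Fix = #{x | x⁻¹ g x ∈ H}`
(`x H` is fixed by `g` iff `x⁻¹ * g * x ∈ H` (`QuotientGroup.eq`, `MulAction.Quotient.smul_mk`); the fibres of `Γ → Γ/H` have
`|H|` elements: `Subgroup.groupEquivQuotientProdSubgroup` or `Subgroup.card_eq_card_quotient_mul_card_subgroup`-style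
counting). -/
theorem card_mul_card_fixedBy {Γ : Type} [Group Γ] [Finite Γ] (H : Subgroup Γ) (g : Γ) :
    Nat.card H * Nat.card (MulAction.fixedBy (Γ ⧸ H) g) = Nat.card {x : Γ // x⁻¹ * g * x ∈ H} := by
  have h1 : {x : Γ | x⁻¹ * g * x ∈ H} = QuotientGroup.mk ⁻¹' (MulAction.fixedBy (Γ ⧸ H) g) := by
    ext x
    simp only [Set.mem_ofPred_eq, Set.mem_preimage, MulAction.mem_fixedBy]
    rw [MulAction.Quotient.smul_mk, eq_comm, QuotientGroup.eq, smul_eq_mul, mul_assoc]
  have h2 := Nat.card_congr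
    (QuotientGroup.preimageMkEquivSubgroupProdSet H (MulAction.fixedBy (Γ ⧸ H) g))
  rw [Nat.card_prod] at h2
  rw [← h2]
  exact Nat.card_congr (Equiv.setCongr h1.symm)

/-- common denominator. -/
theorem Artin_exists_denom {α : Type} [Fintype α] (c : α → ℚ) :
    ∃ (D : ℕ) (z : α → ℤ), 0 < D ∧ ∀ a, (z a : ℚ) = D * c a := by
  classical
  refine ⟨∏ a, (c a).den, fun a => (c a).num * ∏ b ∈ Finset.univ.erase a, ((c b).den : ℤ),
    Finset.prod_pos fun a _ => (c a).den_pos, fun a => ?_⟩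
  rw [← Finset.mul_prod_erase Finset.univ _ (Finset.mem_univ a)]
  push_cast
  have h1 : ((c a).den : ℚ) * c a = (c a).num := Rat.den_mul_eq_num (c a)
  calc ((c a).num : ℚ) * ∏ b ∈ Finset.univ.erase a, ((c b).den : ℚ)
      = ((c a).den : ℚ) * c a * ∏ b ∈ Finset.univ.erase a, ((c b).den : ℚ) := by rw [h1]
    _ = _ := by ring

/-- (E3) **Artin's theorem, permutation form.**
With `m` from (E1) put `c H = m H * |H|`; by (E2)
`∑_H c H * #Fix_{Γ/H}(g) = ∑_H m H * #{x | x⁻¹ g x ∈ H} = ∑_x ∑_{H ∋ x⁻¹ g x} m H = |Γ|`.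
Let `D > 0` be a common denominator of the `c H` (`D = ∏ H, (c H).den`), `z H := (D * c H).num ∈ ℤ`,
`ι := Σ H, Fin (z H).toNat` (positive part, goes to the right hand side: this is `κ`, `B`),
`Σ H, Fin (- z H).toNat` (negative part: `ι`, `A`), `n = D * |Γ|`. -/
theorem exists_artin (Γ : Type) [Group Γ] [Finite Γ] :
    ∃ (ι κ : Type) (_ : Fintype ι) (_ : Fintype κ) (A : ι → Subgroup Γ) (B : κ → Subgroup Γ) (n : ℕ),
      0 < n ∧ (∀ i, IsCyclic (A i)) ∧ (∀ j, IsCyclic (B j)) ∧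
      ∀ g : Γ, n + ∑ i, Nat.card (MulAction.fixedBy (Γ ⧸ A i) g) =
        ∑ j, Nat.card (MulAction.fixedBy (Γ ⧸ B j) g) := by
  classical
  have : Fintype (Subgroup Γ) := Fintype.ofFinite _
  have : Fintype Γ := Fintype.ofFinite _
  obtain ⟨m, hm1, hm2⟩ := exists_weights Γ
  obtain ⟨c, hc⟩ : ∃ c : Subgroup Γ → ℚ, ∀ H, c H = m H * Nat.card H := ⟨_, fun _ => rfl⟩
  have hsum : ∀ g : Γ, ∑ H, c H * (Nat.card (MulAction.fixedBy (Γ ⧸ H) g) : ℚ) = Nat.card Γ := by
    intro g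
    have h1 : ∀ H : Subgroup Γ, c H * (Nat.card (MulAction.fixedBy (Γ ⧸ H) g) : ℚ) =
        ∑ x : Γ, if x⁻¹ * g * x ∈ H then m H else 0 := by
      intro H
      rw [hc, mul_assoc, ← Nat.cast_mul, card_mul_card_fixedBy, Nat.card_eq_fintype_card,
        Fintype.card_subtype, ← Finset.sum_filter, Finset.sum_const, nsmul_eq_mul, mul_comm]
    simp only [h1]
    rw [Finset.sum_comm]
    simp only [hm2]
    simp
  obtain ⟨D, z, hD, hz⟩ := Artin_exists_denom c
  have hcyc : ∀ H, z H ≠ 0 → IsCyclic H := by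
    intro H hH
    apply hm1
    intro h0
    apply hH
    have := hz H
    rw [hc, h0, zero_mul, mul_zero] at this
    exact_mod_cast this
  refine ⟨Σ H : Subgroup Γ, Fin (-z H).toNat, Σ H : Subgroup Γ, Fin (z H).toNat, inferInstance,
    inferInstance, Sigma.fst, Sigma.fst, D * Nat.card Γ, Nat.mul_pos hD Nat.card_pos, ?_, ?_, ?_⟩
  · rintro ⟨H, i⟩
    apply hcyc
    intro h0
    rw [h0] at i
    exact i.elim0
  · rintro ⟨H, i⟩
    apply hcyc
    intro h0
    rw [h0] at i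
    exact i.elim0
  · intro g
    have hσ : ∀ (w F : Subgroup Γ → ℕ), ∑ j : (Σ H : Subgroup Γ, Fin (w H)), F j.1 =
        ∑ H, w H * F H := by
      intro w F
      rw [Fintype.sum_sigma]
      simp
    have e1 := hσ (fun H => (-z H).toNat) (fun H => Nat.card (MulAction.fixedBy (Γ ⧸ H) g))
    have e2 := hσ (fun H => (z H).toNat) (fun H => Nat.card (MulAction.fixedBy (Γ ⧸ H) g))
    rw [e1, e2]
    have h1 : ((D * Nat.card Γ : ℕ) : ℚ) =
        ∑ H, (z H : ℚ) * (Nat.card (MulAction.fixedBy (Γ ⧸ H) g) : ℚ) := by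
      rw [Nat.cast_mul, ← hsum g, Finset.mul_sum]
      exact Finset.sum_congr rfl fun H _ => by rw [hz, mul_assoc]
    have h2 : ((D * Nat.card Γ : ℕ) : ℤ) =
        ∑ H, z H * (Nat.card (MulAction.fixedBy (Γ ⧸ H) g) : ℤ) := by
      exact_mod_cast h1
    have h3 : ∀ H : Subgroup Γ, z H = ((z H).toNat : ℤ) - ((-z H).toNat : ℤ) := by
      intro H
      omega
    have h4 : ((D * Nat.card Γ + ∑ H, (-z H).toNat * Nat.card (MulAction.fixedBy (Γ ⧸ H) g) : ℕ) : ℤ)
        = ((∑ H, (z H).toNat * Nat.card (MulAction.fixedBy (Γ ⧸ H) g) : ℕ) : ℤ) := by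
      rw [Nat.cast_add, h2, Nat.cast_sum, Nat.cast_sum, ← Finset.sum_add_distrib]
      refine Finset.sum_congr rfl fun H _ => ?_
      rw [Nat.cast_mul, Nat.cast_mul]
      have := h3 H
      generalize (Nat.card (MulAction.fixedBy (Γ ⧸ H) g) : ℤ) = F
      generalize ((z H).toNat : ℤ) = u at this ⊢
      generalize ((-z H).toNat : ℤ) = v at this ⊢
      rw [this]
      ring
    exact_mod_cast h4

end Fermat.Agent.S56.G2
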