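/-
S56, block (G2) = global Euler characteristic, part (R) = abstract representation theory.  DEFINITIONS.

* `Inv k G`       : numerical invariants `e Z ρ : ℤ` of `k[G]`-modules `(Z, ρ)` living in `Type`;
* `IsAdditive e`  : `e B = e A + e C` for short exact sequences of finite dimensional `k[G]`-modules;
* `funRep X ρ`    : the `G`-module `Fun(X, W) = W ⊗ k[X]`, `(g f)(x) = ρ g (f (g⁻¹ x))`;
* `coindSub H ρ`, `coindRep H ρ` : `{f : G → W | f (h g) = ρ h (f g), h ∈ H}` with right translation
                    (same shape as `PT.coind`);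
* `QuotP p U = U/pU`, `TorP p U = U[p]` for a `ℤ[G]`-module `(U, ρ : Representation ℤ G U)`, as `𝔽_p[G]`-modules
  `quotPRep p ρ`, `torPRep p ρ`;
* `hh p e U ρ = e (U/p) - e (U[p])` (a "Herbrand function").
-/
import Mathlib

set_option autoImplicit false

namespace Fermat.Agent.S56.G2

/-- numerical invariants of `k[G]`-modules living in `Type`. -/
abbrev Inv (k G : Type) [Field k] [Group G] : Type 1 :=
  ∀ (Z : Type) [AddCommGroup Z] [Module k Z], Representation k G Z → ℤ

/-- additivity on short exact sequences of finite dimensional `k[G]`-modules. -/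
def IsAdditive {k G : Type} [Field k] [Group G] (e : Inv k G) : Prop :=
  ∀ (A B C : Type) [AddCommGroup A] [AddCommGroup B] [AddCommGroup C]
    [Module k A] [Module k B] [Module k C]
    [Module.Finite k A] [Module.Finite k B] [Module.Finite k C]
    (ρA : Representation k G A) (ρB : Representation k G B) (ρC : Representation k G C)
    (i : A →ₗ[k] B) (q : B →ₗ[k] C),
    (∀ g a, i (ρA g a) = ρB g (i a)) → (∀ g b, q (ρB g b) = ρC g (q b)) →
    Function.Injective i → Function.Exact i q → Function.Surjective q →
    e B ρB = e A ρA + e C ρC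

section funRep

variable {k G : Type*} [CommRing k] [Group G]

/-- `Fun(X, W)` with `(g f)(x) = ρ g (f (g⁻¹ x))`. -/
def funRep (X : Type*) [MulAction G X] {W : Type*} [AddCommGroup W] [Module k W]
    (ρ : Representation k G W) : Representation k G (X → W) where
  toFun g :=
    { toFun := fun f x => ρ g (f (g⁻¹ • x))
      map_add' := fun f f' => by funext x; simp
      map_smul' := fun c f => by funext x; simp }
  map_one' := by ext f x; simp
  map_mul' g h := by ext f x; simp [mul_smul]

@[simp] theorem funRep_apply (X : Type*) [MulAction G X] {W : Type*} [AddCommGroup W] [Module k W]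
    (ρ : Representation k G W) (g : G) (f : X → W) (x : X) :
    funRep X ρ g f x = ρ g (f (g⁻¹ • x)) := rfl

/-- the permutation module `k[X]` (functions model). -/
abbrev permRep (k : Type*) [CommRing k] {G : Type*} [Group G] (X : Type*) [MulAction G X] :
    Representation k G (X → k) := funRep X (Representation.trivial k G k)

theorem permRep_apply (X : Type*) [MulAction G X] (g : G) (f : X → k) (x : X) :
    permRep k X g f x = f (g⁻¹ • x) := rfl

variable {W : Type*} [AddCommGroup W] [Module k W]

/-- `{f : G → W | f (h g) = ρ h (f g) for h ∈ H}`. -/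
def coindSub (H : Subgroup G) (ρ : Representation k G W) : Submodule k (G → W) where
  carrier := {f | ∀ h ∈ H, ∀ g, f (h * g) = ρ h (f g)}
  zero_mem' := fun h _ g => by simp
  add_mem' := fun {f f'} hf hf' h hh g => by simp [hf h hh g, hf' h hh g]
  smul_mem' := fun c f hf h hh g => by simp [hf h hh g]

theorem mem_coindSub {H : Subgroup G} {ρ : Representation k G W} {f : G → W} :
    f ∈ coindSub H ρ ↔ ∀ h ∈ H, ∀ g, f (h * g) = ρ h (f g) := Iff.rfl

/-- right translation on `coindSub H ρ`. -/
def coindRep (H : Subgroup G) (ρ : Representation k G W) : Representation k G (coindSub H ρ) where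
  toFun g :=
    { toFun := fun f => ⟨fun x => f.1 (x * g), fun h hh x => by
        show f.1 (h * x * g) = ρ h (f.1 (x * g))
        rw [mul_assoc]; exact f.2 h hh (x * g)⟩
      map_add' := fun f f' => by ext x; simp
      map_smul' := fun c f => by ext x; simp }
  map_one' := by ext f x; simp
  map_mul' g h := by ext f x; simp [mul_assoc]

@[simp] theorem coindRep_apply (H : Subgroup G) (ρ : Representation k G W) (g : G)
    (f : coindSub H ρ) (x : G) : (coindRep H ρ g f).1 x = f.1 (x * g) := rfl

end funRep

section modp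

variable (p : ℕ) (U : Type*) [AddCommGroup U]

/-- multiplication by `p`. -/
def pMap : U →ₗ[ℤ] U := (p : ℤ) • LinearMap.id

@[simp] theorem pMap_apply (u : U) : pMap p U u = p • u := by
  simp [pMap]

/-- `U/pU`. -/
def QuotP : Type _ := U ⧸ LinearMap.range (pMap p U)

/-- `U[p]`. -/
def TorP : Type _ := LinearMap.ker (pMap p U)

instance : AddCommGroup (QuotP p U) := inferInstanceAs (AddCommGroup (U ⧸ LinearMap.range (pMap p U)))
instance : AddCommGroup (TorP p U) := inferInstanceAs (AddCommGroup (LinearMap.ker (pMap p U)))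

variable {U}

/-- the projection `U → U/pU`. -/
def QuotP.mk : U →+ QuotP p U := (Submodule.mkQ (LinearMap.range (pMap p U))).toAddMonoidHom

theorem QuotP.mk_surjective : Function.Surjective (QuotP.mk p : U → QuotP p U) :=
  Submodule.mkQ_surjective _

theorem QuotP.mk_eq_zero_iff (u : U) : QuotP.mk p u = 0 ↔ ∃ v : U, p • v = u := by
  have h : QuotP.mk p u = 0 ↔ u ∈ LinearMap.range (pMap p U) :=
    Submodule.Quotient.mk_eq_zero (LinearMap.range (pMap p U))
  rw [h, LinearMap.mem_range]
  simp only [pMap_apply]

/-- the inclusion `U[p] → U`. -/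
def TorP.val : TorP p U →+ U := (LinearMap.ker (pMap p U)).subtype.toAddMonoidHom

theorem TorP.val_injective : Function.Injective (TorP.val p : TorP p U → U) :=
  Subtype.val_injective

theorem TorP.smul_val (t : TorP p U) : p • TorP.val p t = 0 := by
  have h : pMap p U t.1 = 0 := t.2
  rwa [pMap_apply] at h

/-- constructor of `U[p]`. -/
def TorP.mk (u : U) (hu : p • u = 0) : TorP p U := ⟨u, by
  rw [LinearMap.mem_ker, pMap_apply]; exact hu⟩

@[simp] theorem TorP.val_mk (u : U) (hu : p • u = 0) : TorP.val p (TorP.mk p u hu) = u := rfl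

variable (U)

theorem QuotP.nsmul_eq_zero (x : QuotP p U) : p • x = 0 := by
  obtain ⟨u, rfl⟩ := QuotP.mk_surjective p x
  rw [← map_nsmul, QuotP.mk_eq_zero_iff]
  exact ⟨u, rfl⟩

theorem TorP.nsmul_eq_zero (x : TorP p U) : p • x = 0 := by
  apply TorP.val_injective p
  rw [map_nsmul, TorP.smul_val, map_zero]

instance : Module (ZMod p) (QuotP p U) := AddCommGroup.zmodModule (QuotP.nsmul_eq_zero p U)
instance : Module (ZMod p) (TorP p U) := AddCommGroup.zmodModule (TorP.nsmul_eq_zero p U)

variable {U} {U' : Type*} [AddCommGroup U'] {U'' : Type*} [AddCommGroup U'']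

/-- functoriality of `U/pU`. -/
def QuotP.map (f : U →+ U') : QuotP p U →ₗ[ZMod p] QuotP p U' :=
  AddMonoidHom.toZModLinearMap p
    (Submodule.mapQ (LinearMap.range (pMap p U)) (LinearMap.range (pMap p U')) f.toIntLinearMap (by
      rintro _ ⟨u, rfl⟩
      exact ⟨f u, by simp⟩)).toAddMonoidHom

@[simp] theorem QuotP.map_mk (f : U →+ U') (u : U) :
    QuotP.map p f (QuotP.mk p u) = QuotP.mk p (f u) := rfl

/-- functoriality of `U[p]`. -/
def TorP.map (f : U →+ U') : TorP p U →ₗ[ZMod p] TorP p U' :=
  AddMonoidHom.toZModLinearMap p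
    (AddMonoidHom.mk' (fun t => TorP.mk p (f (TorP.val p t)) (by
        rw [← map_nsmul, TorP.smul_val, map_zero]))
      (fun a b => by
        apply TorP.val_injective p
        simp))

@[simp] theorem TorP.val_map (f : U →+ U') (t : TorP p U) :
    TorP.val p (TorP.map p f t) = f (TorP.val p t) := rfl

theorem QuotP.map_id : QuotP.map p (AddMonoidHom.id U) = LinearMap.id := by
  ext x
  obtain ⟨u, rfl⟩ := QuotP.mk_surjective p x
  simp

theorem QuotP.map_comp (f' : U' →+ U'') (f : U →+ U') :
    QuotP.map p (f'.comp f) = (QuotP.map p f').comp (QuotP.map p f) := by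
  ext x
  obtain ⟨u, rfl⟩ := QuotP.mk_surjective p x
  simp

theorem TorP.map_id : TorP.map p (AddMonoidHom.id U) = LinearMap.id := by
  ext x
  apply TorP.val_injective p
  simp

theorem TorP.map_comp (f' : U' →+ U'') (f : U →+ U') :
    TorP.map p (f'.comp f) = (TorP.map p f').comp (TorP.map p f) := by
  ext x
  apply TorP.val_injective p
  simp

variable {G : Type*} [Group G]

/-- the `𝔽_p[G]`-module `U/pU`. -/
def quotPRep (ρ : Representation ℤ G U) : Representation (ZMod p) G (QuotP p U) where
  toFun g := QuotP.map p (ρ g).toAddMonoidHom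
  map_one' := by
    rw [map_one]
    exact QuotP.map_id p
  map_mul' g h := by
    rw [map_mul]
    exact QuotP.map_comp p (ρ g).toAddMonoidHom (ρ h).toAddMonoidHom

@[simp] theorem quotPRep_mk (ρ : Representation ℤ G U) (g : G) (u : U) :
    quotPRep p ρ g (QuotP.mk p u) = QuotP.mk p (ρ g u) := rfl

/-- the `𝔽_p[G]`-module `U[p]`. -/
def torPRep (ρ : Representation ℤ G U) : Representation (ZMod p) G (TorP p U) where
  toFun g := TorP.map p (ρ g).toAddMonoidHom
  map_one' := by
    rw [map_one]
    exact TorP.map_id p
  map_mul' g h := by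
    rw [map_mul]
    exact TorP.map_comp p (ρ g).toAddMonoidHom (ρ h).toAddMonoidHom

@[simp] theorem val_torPRep (ρ : Representation ℤ G U) (g : G) (t : TorP p U) :
    TorP.val p (torPRep p ρ g t) = ρ g (TorP.val p t) := rfl

end modp

/-- the "Herbrand function" `h(U) = e(U/p) - e(U[p])` of a `ℤ[G]`-module. -/
def hh (p : ℕ) [Fact p.Prime] {G : Type} [Group G] (e : Inv (ZMod p) G)
    (U : Type) [AddCommGroup U] (ρ : Representation ℤ G U) : ℤ :=
  e (QuotP p U) (quotPRep p ρ) - e (TorP p U) (torPRep p ρ)

end Fermat.Agent.S56.G2
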