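/-
S56 (G2)/(R), leaf A1: formal consequences of additivity.  Mathlib only.
All proofs are direct applications of the definition `IsAdditive` to suitable short exact sequences.
-/
import Fermat.Agent.S56.G2.Rep.Defs

set_option autoImplicit false

namespace Fermat.Agent.S56.G2

variable {k G : Type} [Field k] [Group G] {e : Inv k G}

theorem ker_le_comap {A B : Type*} [AddCommGroup A] [AddCommGroup B] [Module k A] [Module k B]
    {ρA : Representation k G A} {ρB : Representation k G B} {f : A →ₗ[k] B}
    (hf : ∀ g a, f (ρA g a) = ρB g (f a)) (g : G) :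
    LinearMap.ker f ≤ (LinearMap.ker f).comap (ρA g) := by
  intro a ha
  rw [Submodule.mem_comap, LinearMap.mem_ker, hf, LinearMap.mem_ker.1 ha, map_zero]

theorem range_le_comap {A B : Type*} [AddCommGroup A] [AddCommGroup B] [Module k A] [Module k B]
    {ρA : Representation k G A} {ρB : Representation k G B} {f : A →ₗ[k] B}
    (hf : ∀ g a, f (ρA g a) = ρB g (f a)) (g : G) :
    LinearMap.range f ≤ (LinearMap.range f).comap (ρB g) := by
  rintro _ ⟨a, rfl⟩
  exact ⟨ρA g a, hf g a⟩

namespace IsAdditive

/-- (`0 → Z → Z → Z → 0` with zero maps.) -/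
theorem zero (he : IsAdditive e) (Z : Type) [AddCommGroup Z] [Module k Z] [Subsingleton Z]
    (ρ : Representation k G Z) : e Z ρ = 0 := by
  have hfin : Module.Finite k Z :=
    Module.Finite.of_surjective (0 : k →ₗ[k] Z) fun z => ⟨0, Subsingleton.elim _ _⟩
  have h := he Z Z Z ρ ρ ρ 0 0 (fun _ _ => Subsingleton.elim _ _) (fun _ _ => Subsingleton.elim _ _)
    (fun _ _ _ => Subsingleton.elim _ _)
    (fun _ => ⟨fun _ => ⟨0, Subsingleton.elim _ _⟩, fun _ => Subsingleton.elim _ _⟩)
    (fun _ => ⟨0, Subsingleton.elim _ _⟩)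
  omega

/-- (`0 → A → B → PUnit → 0`.) -/
theorem congr (he : IsAdditive e) {A B : Type} [AddCommGroup A] [AddCommGroup B]
    [Module k A] [Module k B] [Module.Finite k A]
    (ρA : Representation k G A) (ρB : Representation k G B) (φ : A ≃ₗ[k] B)
    (hφ : ∀ g a, φ (ρA g a) = ρB g (φ a)) : e A ρA = e B ρB := by
  have hfin : Module.Finite k B := Module.Finite.equiv φ
  have h := he A B PUnit ρA ρB 1 φ.toLinearMap 0 hφ (fun _ _ => rfl) φ.injective
    (fun b => ⟨fun _ => ⟨φ.symm b, φ.apply_symm_apply b⟩, fun _ => rfl⟩)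
    (fun _ => ⟨0, rfl⟩)
  rw [he.zero PUnit 1, add_zero] at h
  exact h.symm

theorem sub_add_quot (he : IsAdditive e) {B : Type} [AddCommGroup B] [Module k B] [Module.Finite k B]
    (ρ : Representation k G B) (P : Submodule k B) (hP : ∀ g, P ≤ P.comap (ρ g)) :
    e B ρ = e P (ρ.subrepresentation P hP) + e (B ⧸ P) (ρ.quotient P hP) := by
  exact he P B (B ⧸ P) (ρ.subrepresentation P hP) ρ (ρ.quotient P hP) P.subtype P.mkQ
    (fun _ _ => rfl) (fun _ _ => rfl) Subtype.val_injective (LinearMap.exact_subtype_mkQ P)
    P.mkQ_surjective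

theorem ker_add_range (he : IsAdditive e) {A B : Type} [AddCommGroup A] [AddCommGroup B]
    [Module k A] [Module k B] [Module.Finite k A] [Module.Finite k B]
    (ρA : Representation k G A) (ρB : Representation k G B) (f : A →ₗ[k] B)
    (hf : ∀ g a, f (ρA g a) = ρB g (f a)) :
    e A ρA = e (LinearMap.ker f) (ρA.subrepresentation _ (ker_le_comap hf)) +
      e (LinearMap.range f) (ρB.subrepresentation _ (range_le_comap hf)) := by
  refine he (LinearMap.ker f) A (LinearMap.range f) (ρA.subrepresentation _ (ker_le_comap hf)) ρA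
    (ρB.subrepresentation _ (range_le_comap hf)) (LinearMap.ker f).subtype f.rangeRestrict
    (fun _ _ => rfl) (fun g a => Subtype.ext (hf g a)) Subtype.val_injective ?_
    f.surjective_rangeRestrict
  intro a
  constructor
  · intro h
    exact ⟨⟨a, congrArg Subtype.val h⟩, rfl⟩
  · rintro ⟨⟨x, hx⟩, rfl⟩
    exact Subtype.ext hx

/-- left exact version: `0 → A → B → C`, `e B = e A + e (range q)`. -/
theorem add_range (he : IsAdditive e) {A B C : Type} [AddCommGroup A] [AddCommGroup B] [AddCommGroup C]
    [Module k A] [Module k B] [Module k C]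
    [Module.Finite k A] [Module.Finite k B] [Module.Finite k C]
    (ρA : Representation k G A) (ρB : Representation k G B) (ρC : Representation k G C)
    (i : A →ₗ[k] B) (q : B →ₗ[k] C)
    (hi : ∀ g a, i (ρA g a) = ρB g (i a)) (hq : ∀ g b, q (ρB g b) = ρC g (q b))
    (hinj : Function.Injective i) (hex : Function.Exact i q) :
    e B ρB = e A ρA + e (LinearMap.range q) (ρC.subrepresentation _ (range_le_comap hq)) := by
  refine he A B (LinearMap.range q) ρA ρB (ρC.subrepresentation _ (range_le_comap hq)) i
    q.rangeRestrict hi (fun g b => Subtype.ext (hq g b)) hinj ?_ q.surjective_rangeRestrict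
  intro b
  constructor
  · intro h
    exact (hex b).1 (congrArg Subtype.val h)
  · intro h
    exact Subtype.ext ((hex b).2 h)

/-- a four term exact sequence `0 → A → B → C → D → 0`. -/
theorem four_term (he : IsAdditive e) {A B C D : Type} [AddCommGroup A] [AddCommGroup B]
    [AddCommGroup C] [AddCommGroup D] [Module k A] [Module k B] [Module k C] [Module k D]
    [Module.Finite k A] [Module.Finite k B] [Module.Finite k C] [Module.Finite k D]
    (ρA : Representation k G A) (ρB : Representation k G B) (ρC : Representation k G C)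
    (ρD : Representation k G D)
    (i : A →ₗ[k] B) (f : B →ₗ[k] C) (q : C →ₗ[k] D)
    (hi : ∀ g a, i (ρA g a) = ρB g (i a)) (hf : ∀ g b, f (ρB g b) = ρC g (f b))
    (hq : ∀ g c, q (ρC g c) = ρD g (q c))
    (hinj : Function.Injective i) (hex1 : Function.Exact i f) (hex2 : Function.Exact f q)
    (hsurj : Function.Surjective q) :
    e A ρA + e C ρC = e B ρB + e D ρD := by
  have h1 := he.add_range ρA ρB ρC i f hi hf hinj hex1
  have h2 := he (LinearMap.range f) C D (ρC.subrepresentation _ (range_le_comap hf)) ρC ρD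
    (LinearMap.range f).subtype q (fun _ _ => rfl) hq Subtype.val_injective
    (by
      intro c
      constructor
      · intro h
        exact ⟨⟨c, (hex2 c).1 h⟩, rfl⟩
      · rintro ⟨⟨x, hx⟩, rfl⟩
        exact (hex2 x).2 hx)
    hsurj
  omega

theorem prod (he : IsAdditive e) {A B : Type} [AddCommGroup A] [AddCommGroup B]
    [Module k A] [Module k B] [Module.Finite k A] [Module.Finite k B]
    (ρA : Representation k G A) (ρB : Representation k G B) :
    e (A × B) (ρA.prod ρB) = e A ρA + e B ρB := by
  refine he A (A × B) B ρA (ρA.prod ρB) ρB (LinearMap.inl k A B) (LinearMap.snd k A B)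
    (fun g a => by simp) (fun g b => by simp) LinearMap.inl_injective ?_ LinearMap.snd_surjective
  intro x
  constructor
  · intro h
    exact ⟨x.1, Prod.ext rfl (Eq.symm h)⟩
  · rintro ⟨a, rfl⟩
    rfl

end IsAdditive

/-- restriction of an invariant along a group homomorphism `φ : G' → G`
(NOTE the direction: an invariant of `G'`-modules gives an invariant of `G`-modules). -/
def Inv.res {G' : Type} [Group G'] (e' : Inv k G') (φ : G' →* G) : Inv k G :=
  fun Z _ _ ρ => e' Z (ρ.comp φ)

theorem IsAdditive.res {G' : Type} [Group G'] {e' : Inv k G'} (he : IsAdditive e') (φ : G' →* G) :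
    IsAdditive (e'.res φ) := by
  intro A B C _ _ _ _ _ _ _ _ _ ρA ρB ρC i q hi hq hinj hex hsurj
  exact he A B C (ρA.comp φ) (ρB.comp φ) (ρC.comp φ) i q (fun g a => hi (φ g) a)
    (fun g b => hq (φ g) b) hinj hex hsurj

section zmod

variable {p : ℕ} [Fact p.Prime] {e : Inv (ZMod p) G}

/-- over `𝔽_p` additive equivariant bijections are enough (`AddMonoidHom.toZModLinearMap`). -/
theorem IsAdditive.congr_add (he : IsAdditive e) {A B : Type} [AddCommGroup A] [AddCommGroup B]
    [Module (ZMod p) A] [Module (ZMod p) B] [Module.Finite (ZMod p) A]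
    (ρA : Representation (ZMod p) G A) (ρB : Representation (ZMod p) G B) (φ : A ≃+ B)
    (hφ : ∀ g a, φ (ρA g a) = ρB g (φ a)) : e A ρA = e B ρB := by
  exact he.congr ρA ρB
    (LinearEquiv.ofBijective (AddMonoidHom.toZModLinearMap p φ.toAddMonoidHom) φ.bijective) hφ

end zmod

end Fermat.Agent.S56.G2
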