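/-
S56 (G2)/(R), leaf G1: `Fun(Γ/H, W) ≃ coind_H W`.  Mathlib only.
-/
import Fermat.Agent.S56.G2.Rep.AddBasic

set_option autoImplicit false

namespace Fermat.Agent.S56.G2

open Module

section coind

variable {k G : Type*} [CommRing k] [Group G] {W : Type*} [AddCommGroup W] [Module k W]

/-- `φ f = fun g => ρ g (f (g⁻¹ H))`; inverse `F ↦ (x H ↦ ρ x (F x⁻¹))` (well defined on `G ⧸ H`: `Quotient.lift` /
`Quotient.out`). -/
theorem exists_coindEquiv (H : Subgroup G) (ρ : Representation k G W) :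
    ∃ φ : (G ⧸ H → W) ≃ₗ[k] coindSub H ρ,
      ∀ g f, φ (funRep (G ⧸ H) ρ g f) = coindRep H ρ g (φ f) := by
  have hρ : ∀ (a b : G) (w : W), ρ a (ρ b w) = ρ (a * b) w := fun a b w => by
    rw [map_mul]; rfl
  let φ : (G ⧸ H → W) ≃ₗ[k] coindSub H ρ :=
    { toFun := fun f => ⟨fun g => ρ g (f ((g⁻¹ : G) : G ⧸ H)), by
        intro h hh g
        have h1 : (((h * g)⁻¹ : G) : G ⧸ H) = ((g⁻¹ : G) : G ⧸ H) := by
          rw [QuotientGroup.eq, inv_inv, mul_assoc, mul_inv_cancel, mul_one]
          exact hh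
        show ρ (h * g) (f (((h * g)⁻¹ : G) : G ⧸ H)) = ρ h (ρ g (f ((g⁻¹ : G) : G ⧸ H)))
        rw [h1, hρ]⟩
      map_add' := fun f f' => by
        apply Subtype.ext
        funext g
        exact map_add (ρ g) _ _
      map_smul' := fun c f => by
        apply Subtype.ext
        funext g
        exact map_smul (ρ g) _ _
      invFun := fun F q => ρ q.out (F.1 (q.out)⁻¹)
      left_inv := fun f => by
        funext q
        show ρ q.out (ρ (q.out)⁻¹ (f ((((q.out)⁻¹)⁻¹ : G) : G ⧸ H))) = f q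
        rw [hρ, mul_inv_cancel, map_one, inv_inv, QuotientGroup.out_eq']
        rfl
      right_inv := fun F => by
        apply Subtype.ext
        funext g
        show ρ g (ρ ((g⁻¹ : G) : G ⧸ H).out (F.1 (((g⁻¹ : G) : G ⧸ H).out)⁻¹)) = F.1 g
        obtain ⟨h, hh⟩ := QuotientGroup.mk_out_eq_mul H g⁻¹
        rw [hh, mul_inv_rev, inv_inv, F.2 _ (H.inv_mem h.2), hρ, hρ]
        have h2 : g * (g⁻¹ * (h : G)) * (h : G)⁻¹ = 1 := by group
        rw [h2, map_one]
        rfl }
  refine ⟨φ, fun g f => ?_⟩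
  apply Subtype.ext
  funext x
  show ρ x (ρ g (f (g⁻¹ • ((x⁻¹ : G) : G ⧸ H)))) = ρ (x * g) (f (((x * g)⁻¹ : G) : G ⧸ H))
  rw [hρ, mul_inv_rev]
  rfl

end coind

/-- (`exists_coindEquiv`, `Module.finrank_pi_fintype` / `Module.finrank_fintype_fun_eq_card`-type lemmas,
`Subgroup.index_eq_card`.) -/
theorem finrank_coindSub {k G : Type*} [Field k] [Group G] [Finite G] {W : Type*} [AddCommGroup W]
    [Module k W] [Module.Finite k W] (H : Subgroup G) (ρ : Representation k G W) :
    finrank k (coindSub H ρ) = H.index * finrank k W := by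
  obtain ⟨φ, -⟩ := exists_coindEquiv H ρ
  have : Fintype (G ⧸ H) := Fintype.ofFinite _
  rw [← φ.finrank_eq, Module.finrank_pi_fintype, Finset.sum_const, Finset.card_univ, smul_eq_mul,
    Subgroup.index_eq_card, Nat.card_eq_fintype_card]

instance finite_coindSub {k G : Type*} [Field k] [Group G] [Finite G] {W : Type*} [AddCommGroup W]
    [Module k W] [Module.Finite k W] (H : Subgroup G) (ρ : Representation k G W) :
    Module.Finite k (coindSub H ρ) := by
  have : Module.Finite k (G → W) := Module.Finite.pi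
  infer_instance

variable {k G : Type} [Field k] [Group G] {e : Inv k G}

theorem IsAdditive.funRep_quotient (he : IsAdditive e) [Finite G] (H : Subgroup G)
    {W : Type} [AddCommGroup W] [Module k W] [Module.Finite k W] (ρ : Representation k G W) :
    e (G ⧸ H → W) (funRep (G ⧸ H) ρ) = e (coindSub H ρ) (coindRep H ρ) := by
  obtain ⟨φ, hφ⟩ := exists_coindEquiv H ρ
  exact he.congr _ _ φ hφ

end Fermat.Agent.S56.G2
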