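/-
S56 (G2)/(R), leaf F1: additive invariants and nilpotent equivariant operators.  Mathlib only.
-/
import Fermat.Agent.S56.G2.Rep.AddBasic

set_option autoImplicit false

namespace Fermat.Agent.S56.G2

open Module

/-- the restriction of `T` to its range. -/
def Nilp_res {k W : Type*} [Field k] [AddCommGroup W] [Module k W] (T : W →ₗ[k] W) :
    LinearMap.range T →ₗ[k] LinearMap.range T :=
  T.restrict (fun x _ => LinearMap.mem_range_self T x)

theorem Nilp_res_coe {k W : Type*} [Field k] [AddCommGroup W] [Module k W] (T : W →ₗ[k] W)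
    (w : LinearMap.range T) : (Nilp_res T w : W) = T w := rfl

theorem Nilp_res_pow {k W : Type*} [Field k] [AddCommGroup W] [Module k W] (T : W →ₗ[k] W)
    (q : ℕ) (hq : T ^ (q + 1) = 0) : Nilp_res T ^ q = 0 := by
  ext ⟨_, u, rfl⟩
  rw [Nilp_res, Module.End.pow_restrict, LinearMap.restrict_apply]
  simp only [LinearMap.zero_apply, ZeroMemClass.coe_zero]
  rw [← Module.End.mul_apply, ← pow_succ, hq, LinearMap.zero_apply]

/-- the kernel of the restriction, seen in `W`, is contained in `ker T`. -/
theorem Nilp_map_ker_le {k W : Type*} [Field k] [AddCommGroup W] [Module k W] (T : W →ₗ[k] W) :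
    (LinearMap.ker (Nilp_res T)).map (LinearMap.range T).subtype ≤ LinearMap.ker T := by
  rintro _ ⟨w, hw, rfl⟩
  rw [LinearMap.mem_ker]
  have h1 := congrArg Subtype.val (LinearMap.mem_ker.1 hw)
  rwa [Nilp_res_coe] at h1

theorem Nilp_finrank_ker_res_le {k W : Type*} [Field k] [AddCommGroup W] [Module k W]
    [Module.Finite k W] (T : W →ₗ[k] W) :
    finrank k (LinearMap.ker (Nilp_res T)) ≤ finrank k (LinearMap.ker T) := by
  rw [← Submodule.finrank_map_subtype_eq]
  exact Submodule.finrank_mono (Nilp_map_ker_le T)

/-- `dim W ≤ q dim ker T` if `T ^ q = 0`. -/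
theorem Nilp_finrank_le {k : Type*} [Field k] (q : ℕ) : ∀ {W : Type*} [AddCommGroup W] [Module k W]
    [Module.Finite k W] (T : W →ₗ[k] W), T ^ q = 0 → finrank k W ≤ q * finrank k (LinearMap.ker T) := by
  induction q with
  | zero =>
    intro W _ _ _ T hT
    have hsub : Subsingleton W := ⟨fun a b => by
      have h1 : ∀ x : W, x = 0 := fun x => by
        have := LinearMap.congr_fun hT x
        simpa using this
      rw [h1 a, h1 b]⟩
    rw [finrank_zero_of_subsingleton]
    exact Nat.zero_le _
  | succ q ih =>
    intro W _ _ _ T hT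
    have h1 := ih (Nilp_res T) (Nilp_res_pow T q hT)
    have h2 := LinearMap.finrank_range_add_finrank_ker T
    have h3 := Nilp_finrank_ker_res_le T
    calc finrank k W = finrank k (LinearMap.range T) + finrank k (LinearMap.ker T) := h2.symm
      _ ≤ q * finrank k (LinearMap.ker (Nilp_res T)) + finrank k (LinearMap.ker T) :=
          Nat.add_le_add_right h1 _
      _ ≤ q * finrank k (LinearMap.ker T) + finrank k (LinearMap.ker T) :=
          Nat.add_le_add_right (Nat.mul_le_mul_left _ h3) _
      _ = (q + 1) * finrank k (LinearMap.ker T) := by ring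

theorem Nilp_aux {k G : Type} [Field k] [Group G] {e : Inv k G} (he : IsAdditive e)
    {K : Type} [AddCommGroup K] [Module k K] [Module.Finite k K] (σ : Representation k G K)
    (q : ℕ) : ∀ {W : Type} [AddCommGroup W] [Module k W] [Module.Finite k W]
    (ρ : Representation k G W)
    (j : K →ₗ[k] W) (_ : ∀ g x, j (σ g x) = ρ g (j x)) (_ : Function.Injective j)
    (T : W →ₗ[k] W) (_ : ∀ g w, T (ρ g w) = ρ g (T w))
    (_ : LinearMap.range j = LinearMap.ker T)
    (_ : T ^ q = 0) (_ : finrank k W = q * finrank k K),
    e W ρ = q * e K σ := by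
  induction q with
  | zero =>
    intro W _ _ _ ρ j hj hjinj T hT hker hq hdim
    rw [Nat.zero_mul] at hdim
    have hsub : Subsingleton W := Module.finrank_zero_iff.1 hdim
    rw [he.zero W ρ]
    simp
  | succ q ih =>
    intro W _ _ _ ρ j hj hjinj T hT hker hq hdim
    have hK : finrank k (LinearMap.ker T) = finrank k K := by
      rw [← hker, LinearMap.finrank_range_of_inj hjinj]
    have hrk := LinearMap.finrank_range_add_finrank_ker T
    have hW' : finrank k (LinearMap.range T) = q * finrank k K := by
      rw [hK, hdim, Nat.succ_mul] at hrk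
      exact Nat.add_right_cancel hrk
    -- `e (ker T) = e K`
    have h1 : e K σ = e (LinearMap.ker T) (ρ.subrepresentation _ (ker_le_comap hT)) := by
      refine he.congr σ _ ((LinearEquiv.ofInjective j hjinj).trans (LinearEquiv.ofEq _ _ hker))
        fun g x => ?_
      apply Subtype.ext
      exact hj g x
    rw [he.ker_add_range ρ ρ T hT, ← h1]
    rcases Nat.eq_zero_or_pos q with hq0 | hqpos
    · subst hq0
      rw [Nat.zero_mul] at hW'
      have hsub : Subsingleton (LinearMap.range T) := Module.finrank_zero_iff.1 hW'
      rw [he.zero (LinearMap.range T) _]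
      simp
    · -- `ker T ≤ range T`
      have h2 := Nilp_finrank_le q (Nilp_res T) (Nilp_res_pow T q hq)
      rw [hW'] at h2
      have h3 : finrank k K ≤ finrank k (LinearMap.ker (Nilp_res T)) :=
        Nat.le_of_mul_le_mul_left h2 hqpos
      have h4 : (LinearMap.ker (Nilp_res T)).map (LinearMap.range T).subtype = LinearMap.ker T := by
        refine Submodule.eq_of_le_of_finrank_le (Nilp_map_ker_le T) ?_
        rw [Submodule.finrank_map_subtype_eq, hK]
        exact h3
      have h5 : ∀ x, j x ∈ LinearMap.range T := by
        intro x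
        have h6 : j x ∈ LinearMap.ker T := hker ▸ LinearMap.mem_range_self j x
        rw [← h4] at h6
        obtain ⟨w, -, hw⟩ := h6
        rw [← hw]
        exact w.2
      have h7 := ih (ρ.subrepresentation _ (range_le_comap hT)) (j.codRestrict _ h5)
        (fun g x => Subtype.ext (hj g x))
        (fun x y hxy => hjinj (congrArg Subtype.val hxy))
        (Nilp_res T)
        (fun g w => Subtype.ext (hT g w))
        (by
          ext w
          rw [LinearMap.mem_range, LinearMap.mem_ker]
          constructor
          · rintro ⟨x, rfl⟩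
            apply Subtype.ext
            rw [Nilp_res_coe]
            have h6 : j x ∈ LinearMap.ker T := hker ▸ LinearMap.mem_range_self j x
            exact h6
          · intro hw
            have h6 : (w : W) ∈ LinearMap.ker T := by
              have := congrArg Subtype.val hw
              rwa [Nilp_res_coe] at this
            rw [← hker] at h6
            obtain ⟨x, hx⟩ := h6
            exact ⟨x, Subtype.ext hx⟩)
        (Nilp_res_pow T q hq) hW'
      rw [h7]
      push_cast
      ring

/-- (F1) **A nilpotent equivariant operator with "free" Jordan type.**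
Let `K_i = ker (T ^ i)` (invariant).  `T ^ i` maps `K_{i+1}` to `ker T` with kernel `K_i`; let `I_i ≤ ker T` be the image.
`e K_{i+1} = e K_i + e I_i` (`IsAdditive.add_range`), `finrank K_{i+1} = finrank K_i + finrank I_i`,
`finrank I_i ≤ finrank (ker T) = finrank K`.  Since `K_q = ⊤` and `finrank W = q * finrank K`, all `I_i` (`i < q`) are equal
to `ker T` (`Submodule.eq_of_le_of_finrank_eq`), so `e I_i = e K` (`IsAdditive.congr`) and `e W = q * e K`. -/
theorem IsAdditive.nilpotent {k G : Type} [Field k] [Group G] {e : Inv k G} (he : IsAdditive e)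
    {W K : Type} [AddCommGroup W] [AddCommGroup K] [Module k W] [Module k K]
    [Module.Finite k W] [Module.Finite k K]
    (ρ : Representation k G W) (σ : Representation k G K)
    (j : K →ₗ[k] W) (hj : ∀ g x, j (σ g x) = ρ g (j x)) (hjinj : Function.Injective j)
    (T : W →ₗ[k] W) (hT : ∀ g w, T (ρ g w) = ρ g (T w))
    (hker : LinearMap.range j = LinearMap.ker T)
    (q : ℕ) (hq : T ^ q = 0) (hdim : finrank k W = q * finrank k K) :
    e W ρ = q * e K σ :=
  Nilp_aux he σ q ρ j hj hjinj T hT hker hq hdim

end Fermat.Agent.S56.G2
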