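/-
S56 (G2)/(R), leaf F2: removing the `p`-part of a cyclic subgroup.  Mathlib only.
-/
import Fermat.Agent.S56.G2.Rep.Coind
import Fermat.Agent.S56.G2.Rep.Nilp

set_option autoImplicit false

namespace Fermat.Agent.S56.G2

open Module

section PPartAux

variable {k G : Type*} [CommRing k] [Group G] {W : Type*} [AddCommGroup W] [Module k W]

/-- the subgroup of the `h` with `f (h g) = ρ h (f g)`. -/
def PPart_stab (ρ : Representation k G W) (f : G → W) : Subgroup G where
  carrier := {h | ∀ g, f (h * g) = ρ h (f g)}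
  mul_mem' := fun {a b} ha hb g => by
    have ha' : ∀ g, f (a * g) = ρ a (f g) := ha
    have hb' : ∀ g, f (b * g) = ρ b (f g) := hb
    rw [mul_assoc, ha', hb', map_mul]
    rfl
  one_mem' := fun g => by
    rw [one_mul, map_one]
    rfl
  inv_mem' := fun {a} ha g => by
    have ha' : ∀ g, f (a * g) = ρ a (f g) := ha
    have h1 := ha' (a⁻¹ * g)
    rw [mul_inv_cancel_left] at h1
    rw [h1, ← Module.End.mul_apply, ← map_mul, inv_mul_cancel, map_one]
    rfl

theorem PPart_mem_stab {ρ : Representation k G W} {f : G → W} {h : G} :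
    h ∈ PPart_stab ρ f ↔ ∀ g, f (h * g) = ρ h (f g) := Iff.rfl

/-- `(L f) g = ρ c⁻¹ (f (c g))`. -/
def PPart_L (ρ : Representation k G W) (c : G) (H : Subgroup G) (hc : ∀ h ∈ H, Commute c h) :
    coindSub H ρ →ₗ[k] coindSub H ρ where
  toFun f := ⟨fun g => ρ c⁻¹ (f.1 (c * g)), fun h hh g => by
    show ρ c⁻¹ (f.1 (c * (h * g))) = ρ h (ρ c⁻¹ (f.1 (c * g)))
    have e1 : c * (h * g) = h * (c * g) := by rw [← mul_assoc, (hc h hh).eq, mul_assoc]
    rw [e1, f.2 h hh, ← Module.End.mul_apply, ← Module.End.mul_apply, ← map_mul, ← map_mul,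
      ((hc h hh).inv_left).eq]⟩
  map_add' f f' := by
    apply Subtype.ext
    funext g
    show ρ c⁻¹ (f.1 (c * g) + f'.1 (c * g)) = ρ c⁻¹ (f.1 (c * g)) + ρ c⁻¹ (f'.1 (c * g))
    rw [map_add]
  map_smul' a f := by
    apply Subtype.ext
    funext g
    show ρ c⁻¹ (a • f.1 (c * g)) = a • ρ c⁻¹ (f.1 (c * g))
    rw [map_smul]

theorem PPart_L_apply (ρ : Representation k G W) (c : G) (H : Subgroup G)
    (hc : ∀ h ∈ H, Commute c h) (f : coindSub H ρ) (g : G) :
    (PPart_L ρ c H hc f).1 g = ρ c⁻¹ (f.1 (c * g)) := rfl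

theorem PPart_L_pow_apply (ρ : Representation k G W) (c : G) (H : Subgroup G)
    (hc : ∀ h ∈ H, Commute c h) (n : ℕ) (f : coindSub H ρ) (g : G) :
    ((PPart_L ρ c H hc ^ n) f).1 g = ρ (c ^ n)⁻¹ (f.1 (c ^ n * g)) := by
  induction n generalizing f g with
  | zero =>
    rw [pow_zero, pow_zero, inv_one, map_one, one_mul]
    rfl
  | succ n ih =>
    rw [pow_succ, Module.End.mul_apply, ih, PPart_L_apply, ← Module.End.mul_apply, ← map_mul,
      ← mul_inv_rev, ← mul_assoc, ← pow_succ']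

theorem PPart_L_pow_eq_one (ρ : Representation k G W) (c : G) (H : Subgroup G)
    (hc : ∀ h ∈ H, Commute c h) (n : ℕ) (hn : c ^ n ∈ H) : PPart_L ρ c H hc ^ n = 1 := by
  apply LinearMap.ext
  intro f
  apply Subtype.ext
  funext g
  rw [PPart_L_pow_apply, f.2 _ hn, ← Module.End.mul_apply, ← map_mul, inv_mul_cancel, map_one]
  rfl

end PPartAux

/-- `(L - 1) ^ (p ^ b) = L ^ (p ^ b) - 1` for an endomorphism of an `𝔽_p`-vector space. -/
theorem PPart_sub_one_pow {p : ℕ} [Fact p.Prime] {W : Type*} [AddCommGroup W] [Module (ZMod p) W]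
    (L : Module.End (ZMod p) W) (b : ℕ) : (L - 1) ^ p ^ b = L ^ p ^ b - 1 := by
  have h1 : ((Polynomial.X - 1 : Polynomial (ZMod p))) ^ p ^ b = Polynomial.X ^ p ^ b - 1 := by
    rw [sub_pow_char_pow, one_pow]
  have h2 := congrArg (Polynomial.aeval L) h1
  simpa using h2

/-- (F2) Let `c` generate `C`, `|C| = p^b m`, `p ∤ m`, `q = p^b`, `C' = zpowers (c ^ q)` (cyclic of order `m`,
`orderOf_pow`, `Nat.card_zpowers`), so `C'.index = q * C.index`.
On `W = coindSub C' ρ` let `(L f) g = ρ c⁻¹ (f (c * g))` (maps `W` to `W` because `c` commutes with `C'`; commutes with right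
translations), `T = L - 1`.  `L ^ q = 1` on `W` (`(L ^ n f) g = ρ (c ^ n)⁻¹ (f (c ^ n * g))`, and `c ^ q ∈ C'`), hence
`T ^ q = L ^ q - 1 = 0` (apply `Polynomial.aeval L` to `(X - 1) ^ q = X ^ q - 1` in `(ZMod p)[X]`, `sub_pow_char_pow`; this avoids
`CharP (Module.End _ _)`).  `ker T = {f ∈ W | f (c g) = ρ c (f g)} = coindSub C ρ` (powers of `c`).
Apply (F1) with `j` = inclusion `coindSub C ρ → coindSub C' ρ`, and `finrank_coindSub`. -/
theorem IsAdditive.coind_cyclic {p : ℕ} [Fact p.Prime] {Γ : Type} [Group Γ] [Finite Γ]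
    {e : Inv (ZMod p) Γ} (he : IsAdditive e) (C : Subgroup Γ) (hC : IsCyclic C) :
    ∃ (C' : Subgroup Γ) (q : ℕ), IsCyclic C' ∧ (Nat.card C').Coprime p ∧ 0 < q ∧
      ∀ (N : Type) [AddCommGroup N] [Module (ZMod p) N] [Module.Finite (ZMod p) N]
        (ρ : Representation (ZMod p) Γ N),
        e (coindSub C' ρ) (coindRep C' ρ) = q * e (coindSub C ρ) (coindRep C ρ) := by
  have hp : p.Prime := Fact.out
  obtain ⟨c₀, hc₀⟩ := hC.exists_generator
  set c : Γ := (c₀ : Γ) with hc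
  have hCc : C = Subgroup.zpowers c := by
    apply le_antisymm
    · intro x hx
      obtain ⟨n, hn⟩ := Subgroup.mem_zpowers_iff.1 (hc₀ ⟨x, hx⟩)
      rw [Subgroup.mem_zpowers_iff]
      exact ⟨n, by rw [hc, ← Subgroup.coe_zpow, hn]⟩
    · rw [Subgroup.zpowers_le]
      exact c₀.2
  have hord0 : orderOf c ≠ 0 := (orderOf_pos c).ne'
  obtain ⟨b, m, hm, hbm⟩ := Nat.exists_eq_pow_mul_and_not_dvd hord0 p hp.ne_one
  have hq0 : 0 < p ^ b := pow_pos hp.pos b
  have hm0 : 0 < m := by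
    rcases Nat.eq_zero_or_pos m with h | h
    · rw [h, mul_zero] at hbm
      exact absurd hbm hord0
    · exact h
  have hcardC : Nat.card C = p ^ b * m := by rw [hCc, Nat.card_zpowers, hbm]
  have hcardC' : Nat.card (Subgroup.zpowers (c ^ p ^ b)) = m := by
    rw [Nat.card_zpowers, orderOf_pow, hbm, Nat.gcd_eq_right (Dvd.intro _ rfl),
      Nat.mul_div_cancel_left _ hq0]
  refine ⟨Subgroup.zpowers (c ^ p ^ b), p ^ b, inferInstance, ?_, hq0, ?_⟩
  · rw [hcardC']
    exact ((Nat.Prime.coprime_iff_not_dvd hp).2 hm).symm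
  intro N _ _ _ ρ
  have hle : Subgroup.zpowers (c ^ p ^ b) ≤ C := by
    rw [Subgroup.zpowers_le, hCc]
    exact Subgroup.pow_mem _ (Subgroup.mem_zpowers c) _
  have hcomm : ∀ h ∈ Subgroup.zpowers (c ^ p ^ b), Commute c h := by
    intro h hh
    obtain ⟨n, rfl⟩ := Subgroup.mem_zpowers_iff.1 hh
    exact ((Commute.refl c).pow_right _).zpow_right _
  have hsub : coindSub C ρ ≤ coindSub (Subgroup.zpowers (c ^ p ^ b)) ρ :=
    fun f hf h hh g => hf h (hle hh) g
  have hindex : (Subgroup.zpowers (c ^ p ^ b)).index = p ^ b * C.index := by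
    have h1 := Subgroup.card_mul_index (Subgroup.zpowers (c ^ p ^ b))
    have h2 := Subgroup.card_mul_index C
    rw [hcardC'] at h1
    rw [hcardC] at h2
    apply Nat.eq_of_mul_eq_mul_left hm0
    rw [h1, ← h2]
    ring
  have hres := he.nilpotent (coindRep (Subgroup.zpowers (c ^ p ^ b)) ρ) (coindRep C ρ)
    (Submodule.inclusion hsub) (fun g x => rfl) (Submodule.inclusion_injective hsub)
    (PPart_L ρ c _ hcomm - 1) ?_ ?_ (p ^ b) ?_ ?_
  · exact_mod_cast hres
  · intro g w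
    apply Subtype.ext
    funext x
    show ρ c⁻¹ (w.1 (c * x * g)) - w.1 (x * g) = ρ c⁻¹ (w.1 (c * (x * g))) - w.1 (x * g)
    rw [mul_assoc]
  · ext f
    rw [LinearMap.mem_ker, LinearMap.sub_apply, sub_eq_zero, Module.End.one_apply]
    constructor
    · rintro ⟨a, rfl⟩
      apply Subtype.ext
      funext g
      show ρ c⁻¹ (a.1 (c * g)) = a.1 g
      rw [a.2 c c₀.2, ← Module.End.mul_apply, ← map_mul, inv_mul_cancel, map_one]
      rfl
    · intro hf
      have hcs : c ∈ PPart_stab ρ f.1 := by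
        rw [PPart_mem_stab]
        intro g
        have h1 : ρ c⁻¹ (f.1 (c * g)) = f.1 g := congrFun (congrArg Subtype.val hf) g
        rw [← h1, ← Module.End.mul_apply, ← map_mul, mul_inv_cancel, map_one]
        rfl
      have hCs : C ≤ PPart_stab ρ f.1 := by
        rw [hCc, Subgroup.zpowers_le]
        exact hcs
      exact ⟨⟨f.1, fun h hh g => hCs hh g⟩, rfl⟩
  · rw [PPart_sub_one_pow, PPart_L_pow_eq_one ρ c _ hcomm _ (Subgroup.mem_zpowers _)]
    exact sub_self (1 : Module.End (ZMod p) (coindSub (Subgroup.zpowers (c ^ p ^ b)) ρ))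
  · rw [finrank_coindSub, finrank_coindSub, hindex, mul_assoc]

end Fermat.Agent.S56.G2
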