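/-
S56 (G2)/(R), leaf H1: the Herbrand function `hh p e U ρ = e (U/p) - e (U[p])` is additive on short exact
sequences of `ℤ[G]`-modules which are finitely generated abelian groups.  Mathlib only.
-/
import Fermat.Agent.S56.G2.Rep.AddBasic

set_option autoImplicit false

namespace Fermat.Agent.S56.G2

variable {p : ℕ} [Fact p.Prime] {G : Type} [Group G]

/-- (`U/pU` is a f.g. abelian group killed by `p`; e.g. `Module.Finite.of_surjective` over `ℤ`, then
`Module.finite_of_fg_torsion`, then `Module.Finite.of_finite`; or directly: images of generators span.) -/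
instance finite_QuotP (U : Type*) [AddCommGroup U] [Module.Finite ℤ U] :
    Module.Finite (ZMod p) (QuotP p U) := by
  have : Module.Finite ℤ (QuotP p U) :=
    Module.Finite.of_surjective (QuotP.mk p : U →+ QuotP p U).toIntLinearMap (QuotP.mk_surjective p)
  exact Module.Finite.of_restrictScalars_finite ℤ (ZMod p) (QuotP p U)

/-- (`U[p]` is a submodule of a noetherian `ℤ`-module, killed by `p`.) -/
instance finite_TorP (U : Type*) [AddCommGroup U] [Module.Finite ℤ U] :
    Module.Finite (ZMod p) (TorP p U) := by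
  have : IsNoetherian ℤ U := isNoetherian_of_isNoetherianRing_of_finite ℤ U
  have : Module.Finite ℤ (TorP p U) :=
    Module.Finite.of_injective (TorP.val p : TorP p U →+ U).toIntLinearMap (TorP.val_injective p)
  exact Module.Finite.of_restrictScalars_finite ℤ (ZMod p) (TorP p U)

section snake

set_option linter.unusedSectionVars false

variable {U' U U'' : Type} [AddCommGroup U'] [AddCommGroup U] [AddCommGroup U'']
  (i : U' →ₗ[ℤ] U) (q : U →ₗ[ℤ] U'')

/-- existence of the data defining the connecting map. -/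
theorem Snake_exists (hex : Function.Exact i q) (hsurj : Function.Surjective q) (t : TorP p U'') :
    ∃ w : U × U', q w.1 = TorP.val p t ∧ i w.2 = p • w.1 := by
  obtain ⟨u, hu⟩ := hsurj (TorP.val p t)
  have h1 : q (p • u) = 0 := by rw [map_nsmul, hu, TorP.smul_val]
  obtain ⟨u', hu'⟩ := (hex _).1 h1
  exact ⟨(u, u'), hu, hu'⟩

/-- independence of the choices. -/
theorem Snake_unique (hinj : Function.Injective i) (hex : Function.Exact i q) {u v : U} {u' v' : U'}
    (huv : q u = q v) (hu : i u' = p • u) (hv : i v' = p • v) :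
    (QuotP.mk p u' : QuotP p U') = QuotP.mk p v' := by
  have h1 : q (u - v) = 0 := by rw [map_sub, huv, sub_self]
  obtain ⟨w, hw⟩ := (hex _).1 h1
  rw [← sub_eq_zero, ← map_sub, QuotP.mk_eq_zero_iff]
  refine ⟨w, hinj ?_⟩
  rw [map_nsmul, hw, map_sub, hu, hv, smul_sub]

/-- the connecting map, as a function. -/
noncomputable def Snake_fun (hex : Function.Exact i q) (hsurj : Function.Surjective q)
    (t : TorP p U'') : QuotP p U' :=
  QuotP.mk p (Snake_exists i q hex hsurj t).choose.2

theorem Snake_fun_eq (hinj : Function.Injective i) (hex : Function.Exact i q)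
    (hsurj : Function.Surjective q) (t : TorP p U'') {u : U} {u' : U'}
    (hu : q u = TorP.val p t) (hu' : i u' = p • u) :
    Snake_fun i q hex hsurj t = QuotP.mk p u' := by
  have h := (Snake_exists i q hex hsurj t).choose_spec
  exact Snake_unique i q hinj hex (h.1.trans hu.symm) h.2 hu'

/-- the connecting map. -/
noncomputable def Snake_delta (hinj : Function.Injective i) (hex : Function.Exact i q)
    (hsurj : Function.Surjective q) : TorP p U'' →ₗ[ZMod p] QuotP p U' :=
  AddMonoidHom.toZModLinearMap p (AddMonoidHom.mk' (Snake_fun i q hex hsurj) (fun a b => by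
    have ha := (Snake_exists i q hex hsurj a).choose_spec
    have hb := (Snake_exists i q hex hsurj b).choose_spec
    rw [Snake_fun_eq i q hinj hex hsurj (a + b)
      (u := (Snake_exists i q hex hsurj a).choose.1 + (Snake_exists i q hex hsurj b).choose.1)
      (u' := (Snake_exists i q hex hsurj a).choose.2 + (Snake_exists i q hex hsurj b).choose.2)
      (by rw [map_add, ha.1, hb.1, map_add]) (by rw [map_add, ha.2, hb.2, smul_add]), map_add]
    rfl))

theorem Snake_delta_eq (hinj : Function.Injective i) (hex : Function.Exact i q)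
    (hsurj : Function.Surjective q) (t : TorP p U'') {u : U} {u' : U'}
    (hu : q u = TorP.val p t) (hu' : i u' = p • u) :
    Snake_delta i q hinj hex hsurj t = QuotP.mk p u' :=
  Snake_fun_eq i q hinj hex hsurj t hu hu'

theorem Snake_injective (hinj : Function.Injective i) :
    Function.Injective (TorP.map p i.toAddMonoidHom) := by
  intro a b hab
  apply TorP.val_injective p
  apply hinj
  have := congrArg (TorP.val p) hab
  simpa using this

theorem Snake_exact_T (hinj : Function.Injective i) (hex : Function.Exact i q) :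
    Function.Exact (TorP.map p i.toAddMonoidHom) (TorP.map p q.toAddMonoidHom) := by
  intro t
  constructor
  · intro ht
    have h1 : q (TorP.val p t) = 0 := by
      have := congrArg (TorP.val p) ht
      simpa using this
    obtain ⟨u', hu'⟩ := (hex _).1 h1
    have h2 : p • u' = 0 := by
      apply hinj
      rw [map_nsmul, hu', TorP.smul_val, map_zero]
    refine ⟨TorP.mk p u' h2, ?_⟩
    apply TorP.val_injective p
    rw [TorP.val_map, TorP.val_mk]
    exact hu'
  · rintro ⟨s, rfl⟩
    apply TorP.val_injective p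
    rw [TorP.val_map, TorP.val_map, map_zero]
    exact (hex _).2 ⟨_, rfl⟩

theorem Snake_exact_T_delta (hinj : Function.Injective i) (hex : Function.Exact i q)
    (hsurj : Function.Surjective q) :
    Function.Exact (TorP.map p q.toAddMonoidHom) (Snake_delta (p := p) i q hinj hex hsurj) := by
  intro t
  constructor
  · intro ht
    obtain ⟨⟨u, u'⟩, hu, hu'⟩ := Snake_exists i q hex hsurj t
    simp only at hu hu'
    rw [Snake_delta_eq i q hinj hex hsurj t hu hu', QuotP.mk_eq_zero_iff] at ht
    obtain ⟨w, hw⟩ := ht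
    have h1 : p • (u - i w) = 0 := by
      rw [smul_sub, ← hu', ← map_nsmul, hw, sub_self]
    refine ⟨TorP.mk p (u - i w) h1, ?_⟩
    apply TorP.val_injective p
    rw [TorP.val_map, TorP.val_mk]
    show q (u - i w) = _
    rw [map_sub, (hex _).2 ⟨w, rfl⟩, sub_zero, hu]
  · rintro ⟨s, rfl⟩
    rw [Snake_delta_eq i q hinj hex hsurj _ (u := TorP.val p s) (u' := 0) rfl
      (by rw [map_zero, TorP.smul_val]), map_zero]

theorem Snake_exact_delta_Q (hinj : Function.Injective i) (hex : Function.Exact i q)
    (hsurj : Function.Surjective q) :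
    Function.Exact (Snake_delta (p := p) i q hinj hex hsurj) (QuotP.map p i.toAddMonoidHom) := by
  intro x
  obtain ⟨u', rfl⟩ := QuotP.mk_surjective p x
  constructor
  · intro hx
    rw [QuotP.map_mk, QuotP.mk_eq_zero_iff] at hx
    obtain ⟨u, hu⟩ := hx
    have hu2 : i u' = p • u := hu.symm
    have h1 : p • q u = 0 := by
      rw [← map_nsmul, ← hu2]
      exact (hex _).2 ⟨u', rfl⟩
    exact ⟨TorP.mk p (q u) h1, Snake_delta_eq i q hinj hex hsurj _ rfl hu2⟩
  · rintro ⟨t, ht⟩
    obtain ⟨⟨u, v'⟩, hu, hv'⟩ := Snake_exists i q hex hsurj t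
    simp only at hu hv'
    rw [Snake_delta_eq i q hinj hex hsurj t hu hv'] at ht
    rw [← ht, QuotP.map_mk, QuotP.mk_eq_zero_iff]
    exact ⟨u, hv'.symm⟩

theorem Snake_exact_Q (hex : Function.Exact i q) (hsurj : Function.Surjective q) :
    Function.Exact (QuotP.map p i.toAddMonoidHom) (QuotP.map p q.toAddMonoidHom) := by
  intro x
  obtain ⟨u, rfl⟩ := QuotP.mk_surjective p x
  constructor
  · intro hx
    rw [QuotP.map_mk, QuotP.mk_eq_zero_iff] at hx
    obtain ⟨v'', hv''⟩ := hx
    obtain ⟨v, rfl⟩ := hsurj v''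
    have h1 : q (u - p • v) = 0 := by
      rw [map_sub, map_nsmul, sub_eq_zero]
      exact hv''.symm
    obtain ⟨u', hu'⟩ := (hex _).1 h1
    refine ⟨QuotP.mk p u', ?_⟩
    rw [QuotP.map_mk, ← sub_eq_zero, ← map_sub, QuotP.mk_eq_zero_iff]
    refine ⟨-v, ?_⟩
    show p • -v = i u' - u
    rw [hu', smul_neg]
    abel
  · rintro ⟨y, hy⟩
    rw [← hy]
    obtain ⟨u', rfl⟩ := QuotP.mk_surjective p y
    rw [QuotP.map_mk, QuotP.map_mk]
    have : q (i u') = 0 := (hex _).2 ⟨u', rfl⟩
    show QuotP.mk p (q (i u')) = 0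
    rw [this, map_zero]

theorem Snake_surjective (hsurj : Function.Surjective q) :
    Function.Surjective (QuotP.map p q.toAddMonoidHom) := by
  intro x
  obtain ⟨u'', rfl⟩ := QuotP.mk_surjective p x
  obtain ⟨u, rfl⟩ := hsurj u''
  exact ⟨QuotP.mk p u, rfl⟩

end snake

/-- **Snake lemma.**  For `0 → U' → U → U'' → 0`:  `0 → U'[p] → U[p] → U''[p] → U'/p → U/p → U''/p → 0`.
Bookkeeping (T = TorP, Q = QuotP; all maps `TorP.map`, `QuotP.map`, equivariant by `val_torPRep`, `quotPRep_mk`):
* `e T = e T' + e I₁`, `I₁ = range (T → T'')`            (`IsAdditive.add_range`);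
* `e Q = e J + e Q''`, `J = range (Q' → Q) = ker (Q → Q'')`  (definition of additivity for `0 → J → Q → Q'' → 0`);
* `e Q' = e K + e J`, `K = ker (Q' → Q)`                  (`IsAdditive.ker_add_range`);
* `e T'' = e I₁ + e K`: the connecting map `δ : T'' → K`, `δ t = [u']` where `q u = t`, `i u' = p u`, is well
  defined, additive, equivariant, surjective, with kernel `I₁`.
  (`Mathlib/Algebra/Module/SnakeLemma.lean` has `SnakeLemma.δ'`, `δ'_eq`, `exact_δ'_left/right` over `ℤ`;
  equivariance follows from the characterisation `δ'_eq`.  A hand-made `δ` via `Function.surjInv` is equally good.)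
Sum up. -/
theorem hh_add {e : Inv (ZMod p) G} (he : IsAdditive e)
    {U' U U'' : Type} [AddCommGroup U'] [AddCommGroup U] [AddCommGroup U'']
    [Module.Finite ℤ U'] [Module.Finite ℤ U] [Module.Finite ℤ U'']
    (ρ' : Representation ℤ G U') (ρ : Representation ℤ G U) (ρ'' : Representation ℤ G U'')
    (i : U' →ₗ[ℤ] U) (q : U →ₗ[ℤ] U'')
    (hi : ∀ g a, i (ρ' g a) = ρ g (i a)) (hq : ∀ g b, q (ρ g b) = ρ'' g (q b))
    (hinj : Function.Injective i) (hex : Function.Exact i q) (hsurj : Function.Surjective q) :
    hh p e U ρ = hh p e U' ρ' + hh p e U'' ρ'' := by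
  set δ := Snake_delta (p := p) i q hinj hex hsurj with hδdef
  -- equivariance
  have hTi : ∀ g a, TorP.map p i.toAddMonoidHom (torPRep p ρ' g a) =
      torPRep p ρ g (TorP.map p i.toAddMonoidHom a) := by
    intro g a
    apply TorP.val_injective p
    exact hi g _
  have hTq : ∀ g a, TorP.map p q.toAddMonoidHom (torPRep p ρ g a) =
      torPRep p ρ'' g (TorP.map p q.toAddMonoidHom a) := by
    intro g a
    apply TorP.val_injective p
    exact hq g _
  have hQi : ∀ g a, QuotP.map p i.toAddMonoidHom (quotPRep p ρ' g a) =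
      quotPRep p ρ g (QuotP.map p i.toAddMonoidHom a) := by
    intro g a
    obtain ⟨u, rfl⟩ := QuotP.mk_surjective p a
    exact congrArg (QuotP.mk p) (hi g u)
  have hQq : ∀ g a, QuotP.map p q.toAddMonoidHom (quotPRep p ρ g a) =
      quotPRep p ρ'' g (QuotP.map p q.toAddMonoidHom a) := by
    intro g a
    obtain ⟨u, rfl⟩ := QuotP.mk_surjective p a
    exact congrArg (QuotP.mk p) (hq g u)
  have hδ : ∀ g t, δ (torPRep p ρ'' g t) = quotPRep p ρ' g (δ t) := by
    intro g t
    obtain ⟨⟨u, u'⟩, hu, hu'⟩ := Snake_exists i q hex hsurj t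
    simp only at hu hu'
    rw [hδdef, Snake_delta_eq i q hinj hex hsurj t hu hu', quotPRep_mk,
      Snake_delta_eq i q hinj hex hsurj _ (u := ρ g u) (u' := ρ' g u')
        (by rw [hq, hu, val_torPRep]) (by rw [hi, hu', map_nsmul])]
  have h1 := he.four_term (torPRep p ρ') (torPRep p ρ) (torPRep p ρ'')
    ((quotPRep p ρ').subrepresentation _ (range_le_comap hδ))
    (TorP.map p i.toAddMonoidHom) (TorP.map p q.toAddMonoidHom) δ.rangeRestrict hTi hTq
    (fun g c => Subtype.ext (hδ g c)) (Snake_injective i hinj) (Snake_exact_T i q hinj hex)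
    (fun t => by
      rw [← Snake_exact_T_delta i q hinj hex hsurj t]
      constructor
      · intro h
        exact congrArg Subtype.val h
      · intro h
        exact Subtype.ext h)
    δ.surjective_rangeRestrict
  have h2 := he.four_term ((quotPRep p ρ').subrepresentation _ (range_le_comap hδ))
    (quotPRep p ρ') (quotPRep p ρ) (quotPRep p ρ'')
    (LinearMap.range δ).subtype (QuotP.map p i.toAddMonoidHom) (QuotP.map p q.toAddMonoidHom)
    (fun g a => rfl) hQi hQq (Submodule.subtype_injective _)
    (fun x => by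
      rw [Snake_exact_delta_Q i q hinj hex hsurj x]
      constructor
      · rintro ⟨t, rfl⟩
        exact ⟨⟨δ t, t, rfl⟩, rfl⟩
      · rintro ⟨⟨_, t, rfl⟩, rfl⟩
        exact ⟨t, rfl⟩)
    (Snake_exact_Q i q hex hsurj) (Snake_surjective q hsurj)
  unfold hh
  linarith

end Fermat.Agent.S56.G2
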