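/-
S56 (G2)/(R), leaf H2: the Herbrand function vanishes on finite modules; the lattice lemma.  Mathlib only.
-/
import Fermat.Agent.S56.G2.Rep.Snake

set_option autoImplicit false

namespace Fermat.Agent.S56.G2

variable {p : ℕ} [Fact p.Prime] {G : Type} [Group G] {e : Inv (ZMod p) G}

theorem HFinite_hh_of_subsingletons (he : IsAdditive e) {U : Type} [AddCommGroup U]
    (ρ : Representation ℤ G U) (h1 : Subsingleton (QuotP p U)) (h2 : Subsingleton (TorP p U)) :
    hh p e U ρ = 0 := by
  unfold hh
  rw [he.zero _ _, he.zero _ _, sub_zero]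

theorem HFinite_hh_of_subsingleton (he : IsAdditive e) {U : Type} [AddCommGroup U] [Subsingleton U]
    (ρ : Representation ℤ G U) : hh p e U ρ = 0 :=
  HFinite_hh_of_subsingletons he ρ (QuotP.mk_surjective p).subsingleton
    (TorP.val_injective p).subsingleton

/-- isomorphic `ℤ[G]`-modules have the same `hh` (`IsAdditive.congr_add` twice, or `hh_add` with `U'' = PUnit`). -/
theorem hh_congr (he : IsAdditive e) {U U' : Type} [AddCommGroup U] [AddCommGroup U']
    [Module.Finite ℤ U] (ρ : Representation ℤ G U) (ρ' : Representation ℤ G U')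
    (φ : U ≃ₗ[ℤ] U') (hφ : ∀ g a, φ (ρ g a) = ρ' g (φ a)) : hh p e U ρ = hh p e U' ρ' := by
  have : Module.Finite ℤ U' := Module.Finite.equiv φ
  have h := hh_add he ρ ρ' (Representation.trivial ℤ G PUnit) φ.toLinearMap 0 hφ
    (fun _ _ => rfl) φ.injective (fun y => ⟨fun _ => φ.surjective y, fun _ => rfl⟩)
    (fun _ => ⟨0, rfl⟩)
  rw [h, HFinite_hh_of_subsingleton he (Representation.trivial ℤ G PUnit), add_zero]

/-- if `p U = 0` then `U/p = U = U[p]`. -/
theorem hh_eq_zero_of_smul_eq_zero (he : IsAdditive e) {U : Type} [AddCommGroup U] [Finite U]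
    (ρ : Representation ℤ G U) (hU : ∀ u : U, p • u = 0) : hh p e U ρ = 0 := by
  have : Module.Finite ℤ U := Module.Finite.of_finite
  have hbij : Function.Bijective ((QuotP.mk p).comp (TorP.val p) : TorP p U →+ QuotP p U) := by
    constructor
    · rw [injective_iff_map_eq_zero]
      intro t ht
      rw [AddMonoidHom.comp_apply, QuotP.mk_eq_zero_iff] at ht
      obtain ⟨v, hv⟩ := ht
      apply TorP.val_injective p
      rw [← hv, hU, map_zero]
    · intro x
      obtain ⟨u, rfl⟩ := QuotP.mk_surjective p x
      exact ⟨TorP.mk p u (hU u), rfl⟩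
  have h := he.congr_add (torPRep p ρ) (quotPRep p ρ) (AddEquiv.ofBijective _ hbij)
    (fun g a => rfl)
  unfold hh
  rw [h, sub_self]

/-- **`hh` vanishes on finite modules.**  Strong induction on `Nat.card U` (generalising `U`).
If `u ↦ p u` is injective it is bijective (`Finite.injective_iff_surjective`), so `U/p` and `U[p]` are
subsingletons (`IsAdditive.zero`).  Otherwise `P = range (pMap p U) ≠ ⊤` is a proper invariant submodule:
`hh U = hh P + hh (U ⧸ P)` (`hh_add` with `ρ.subrepresentation`, `ρ.quotient`), `hh P = 0` by induction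
(`Nat.card P < Nat.card U`) and `hh (U ⧸ P) = 0` by `hh_eq_zero_of_smul_eq_zero`. -/
theorem hh_eq_zero_of_finite (he : IsAdditive e) {U : Type} [AddCommGroup U] [Finite U]
    (ρ : Representation ℤ G U) : hh p e U ρ = 0 := by
  have key : ∀ n : ℕ, ∀ (U : Type) [AddCommGroup U] [Finite U] (ρ : Representation ℤ G U),
      Nat.card U = n → hh p e U ρ = 0 := by
    intro n
    induction n using Nat.strong_induction_on with
    | _ n ih =>
      intro U _ _ ρ hn
      have : Module.Finite ℤ U := Module.Finite.of_finite
      by_cases hinj : Function.Injective (pMap p U)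
      · have hsurj : Function.Surjective (pMap p U) := Finite.injective_iff_surjective.1 hinj
        refine HFinite_hh_of_subsingletons he ρ ?_ ?_
        · refine ⟨fun x y => ?_⟩
          have h0 : ∀ z : QuotP p U, z = 0 := by
            intro z
            obtain ⟨u, rfl⟩ := QuotP.mk_surjective p z
            rw [QuotP.mk_eq_zero_iff]
            obtain ⟨v, hv⟩ := hsurj u
            exact ⟨v, by rw [← hv, pMap_apply]⟩
          rw [h0 x, h0 y]
        · refine ⟨fun x y => ?_⟩
          have h0 : ∀ z : TorP p U, z = 0 := by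
            intro z
            apply TorP.val_injective p
            apply hinj
            rw [pMap_apply, TorP.smul_val, map_zero, map_zero]
          rw [h0 x, h0 y]
      · have hP : ∀ g, LinearMap.range (pMap p U) ≤ (LinearMap.range (pMap p U)).comap (ρ g) := by
          rintro g _ ⟨u, rfl⟩
          exact ⟨ρ g u, by simp⟩
        have hns : ¬ Function.Surjective (pMap p U) :=
          fun h => hinj (Finite.injective_iff_surjective.2 h)
        have hx : ∃ x : U, x ∉ LinearMap.range (pMap p U) := by
          by_contra hcon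
          push Not at hcon
          exact hns fun x => hcon x
        obtain ⟨x, hx⟩ := hx
        have hlt : Nat.card (LinearMap.range (pMap p U)) < n := by
          rw [← hn]
          exact Finite.card_subtype_lt hx
        have h := hh_add he (ρ.subrepresentation _ hP) ρ (ρ.quotient _ hP)
          (LinearMap.range (pMap p U)).subtype (LinearMap.range (pMap p U)).mkQ
          (fun _ _ => rfl) (fun _ _ => rfl) (Submodule.subtype_injective _)
          (LinearMap.exact_subtype_mkQ _) (Submodule.mkQ_surjective _)
        rw [h, ih _ hlt _ _ rfl, zero_add]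
        have : Finite (U ⧸ LinearMap.range (pMap p U)) :=
          Finite.of_surjective _ (Submodule.mkQ_surjective _)
        apply hh_eq_zero_of_smul_eq_zero he
        intro u
        obtain ⟨u', rfl⟩ := Submodule.mkQ_surjective _ u
        rw [← map_nsmul, Submodule.mkQ_apply, Submodule.Quotient.mk_eq_zero]
        exact ⟨u', by simp⟩
  exact key _ U ρ rfl

/-- `hh U = hh (ker f) + hh Λ` if `f : U → Λ` has finite cokernel
(`0 → ker f → U → range f → 0`, `0 → range f → Λ → Λ/range f → 0`). -/
theorem hh_eq_ker_add (he : IsAdditive e) {U Λ : Type} [AddCommGroup U] [AddCommGroup Λ]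
    [Module.Finite ℤ U] [Module.Finite ℤ Λ]
    (ρ : Representation ℤ G U) (σ : Representation ℤ G Λ) (f : U →ₗ[ℤ] Λ)
    (hf : ∀ g a, f (ρ g a) = σ g (f a)) (hfin : Finite (Λ ⧸ LinearMap.range f)) :
    hh p e U ρ = hh p e (LinearMap.ker f) (ρ.subrepresentation (LinearMap.ker f) (fun g a ha => by
      rw [Submodule.mem_comap, LinearMap.mem_ker, hf, LinearMap.mem_ker.1 ha, map_zero])) +
      hh p e Λ σ := by
  have hR : ∀ g, LinearMap.range f ≤ (LinearMap.range f).comap (σ g) := by
    rintro g _ ⟨a, rfl⟩
    exact ⟨ρ g a, hf g a⟩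
  have h1 := hh_add he (ρ.subrepresentation (LinearMap.ker f) (fun g a ha => by
      rw [Submodule.mem_comap, LinearMap.mem_ker, hf, LinearMap.mem_ker.1 ha, map_zero])) ρ
    (σ.subrepresentation _ hR) (LinearMap.ker f).subtype f.rangeRestrict
    (fun _ _ => rfl) (fun g b => Subtype.ext (hf g b)) (Submodule.subtype_injective _)
    (fun y => by
      constructor
      · intro hy
        exact ⟨⟨y, congrArg Subtype.val hy⟩, rfl⟩
      · rintro ⟨a, rfl⟩
        exact Subtype.ext a.2)
    f.surjective_rangeRestrict
  have h2 := hh_add he (σ.subrepresentation _ hR) σ (σ.quotient _ hR)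
    (LinearMap.range f).subtype (LinearMap.range f).mkQ
    (fun _ _ => rfl) (fun _ _ => rfl) (Submodule.subtype_injective _)
    (LinearMap.exact_subtype_mkQ _) (Submodule.mkQ_surjective _)
  rw [hh_eq_zero_of_finite he (σ.quotient _ hR), add_zero] at h2
  rw [h1, h2]

/-- **Lattice lemma.** -/
theorem hh_eq_of_injective (he : IsAdditive e) {U Λ : Type} [AddCommGroup U] [AddCommGroup Λ]
    [Module.Finite ℤ U] [Module.Finite ℤ Λ]
    (ρ : Representation ℤ G U) (σ : Representation ℤ G Λ) (f : U →ₗ[ℤ] Λ)
    (hf : ∀ g a, f (ρ g a) = σ g (f a)) (hinj : Function.Injective f)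
    (hfin : Finite (Λ ⧸ LinearMap.range f)) : hh p e U ρ = hh p e Λ σ := by
  have : Subsingleton (LinearMap.ker f) := by
    rw [LinearMap.ker_eq_bot.2 hinj]
    infer_instance
  rw [hh_eq_ker_add he ρ σ f hf hfin, HFinite_hh_of_subsingleton he, zero_add]

theorem hh_prod (he : IsAdditive e) {U U' : Type} [AddCommGroup U] [AddCommGroup U']
    [Module.Finite ℤ U] [Module.Finite ℤ U'] (ρ : Representation ℤ G U) (ρ' : Representation ℤ G U') :
    hh p e (U × U') (ρ.prod ρ') = hh p e U ρ + hh p e U' ρ' :=
  hh_add he ρ (ρ.prod ρ') ρ' (LinearMap.inl ℤ U U') (LinearMap.snd ℤ U U')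
    (fun g a => by simp) (fun g b => by simp) LinearMap.inl_injective
    (fun y => by
      constructor
      · intro hy
        exact ⟨y.1, Prod.ext rfl hy.symm⟩
      · rintro ⟨a, rfl⟩
        rfl)
    LinearMap.snd_surjective

end Fermat.Agent.S56.G2
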