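/-
S56 (G2)/(R), leaf H3: the Herbrand function of permutation lattices.  Mathlib only.
-/
import Fermat.Agent.S56.G2.Rep.Snake

set_option autoImplicit false

namespace Fermat.Agent.S56.G2

variable {p : ℕ} [Fact p.Prime] {G : Type} [Group G] {e : Inv (ZMod p) G}

/-- a surjection `r : U → W` with kernel `p U` induces `U/pU ≃ W`. -/
theorem HPerm_exists_equiv {U W : Type*} [AddCommGroup U] [AddCommGroup W] (p : ℕ) (r : U →+ W)
    (hs : Function.Surjective r) (hk : ∀ u, r u = 0 ↔ ∃ v, p • v = u) :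
    ∃ ψ : QuotP p U ≃+ W, ∀ u, ψ (QuotP.mk p u) = r u := by
  let ψ₀ : QuotP p U →+ W :=
    ((LinearMap.range (pMap p U)).liftQ r.toIntLinearMap (by
      rintro _ ⟨v, rfl⟩
      rw [LinearMap.mem_ker, pMap_apply]
      exact (hk _).2 ⟨v, rfl⟩)).toAddMonoidHom
  have h0 : ∀ u, ψ₀ (QuotP.mk p u) = r u := fun _ => rfl
  have hbij : Function.Bijective ψ₀ := by
    constructor
    · rw [injective_iff_map_eq_zero]
      intro x hx
      obtain ⟨u, rfl⟩ := QuotP.mk_surjective p x
      rw [h0] at hx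
      exact (QuotP.mk_eq_zero_iff p u).2 ((hk u).1 hx)
    · intro w
      obtain ⟨u, rfl⟩ := hs w
      exact ⟨QuotP.mk p u, h0 u⟩
  exact ⟨AddEquiv.ofBijective ψ₀ hbij, h0⟩

/-- the Herbrand function of a `p`-torsion free module `U` with `U/pU ≃ W`. -/
theorem HPerm_hh_eq (he : IsAdditive e) {U W : Type} [AddCommGroup U] [AddCommGroup W]
    [Module (ZMod p) W] [Module.Finite (ZMod p) W]
    (ρ : Representation ℤ G U) (ρW : Representation (ZMod p) G W) (r : U →+ W)
    (hs : Function.Surjective r) (hk : ∀ u, r u = 0 ↔ ∃ v, p • v = u)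
    (htf : ∀ u : U, p • u = 0 → u = 0) (hr : ∀ g u, r (ρ g u) = ρW g (r u)) :
    hh p e U ρ = e W ρW := by
  have hsub : Subsingleton (TorP p U) := ⟨fun a b => TorP.val_injective p (by
    rw [htf _ (TorP.smul_val p a), htf _ (TorP.smul_val p b)])⟩
  obtain ⟨ψ, hψ⟩ := HPerm_exists_equiv p r hs hk
  unfold hh
  rw [he.zero (TorP p U) (torPRep p ρ), sub_zero]
  refine (he.congr_add ρW (quotPRep p ρ) ψ.symm fun g w => ?_).symm
  apply ψ.injective
  rw [AddEquiv.apply_symm_apply]
  obtain ⟨u, hu⟩ := QuotP.mk_surjective p (ψ.symm w)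
  have hw : w = r u := by
    rw [← hψ, hu, AddEquiv.apply_symm_apply]
  rw [← hu, quotPRep_mk, hψ, hr, hw]

/-- `hh (ℤ[X]) = e (𝔽_p[X])`: `(X → ℤ)[p] = 0` and `(X → ℤ)/p ≃ (X → ZMod p)` (reduce coordinatewise:
`f ↦ fun x => (f x : ZMod p)`; kernel `= p (X → ℤ)` by `ZMod.intCast_zmod_eq_zero_iff_dvd`-type lemmas,
surjective by `ZMod.intCast_surjective`); `IsAdditive.congr_add`. -/
theorem hh_permRep (he : IsAdditive e) (X : Type) [Finite X] [MulAction G X] :
    hh p e (X → ℤ) (permRep ℤ X) = e (X → ZMod p) (permRep (ZMod p) X) := by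
  have hp : p ≠ 0 := (Fact.out : p.Prime).ne_zero
  refine HPerm_hh_eq he (permRep ℤ X) (permRep (ZMod p) X) ((Int.castAddHom (ZMod p)).compLeft X)
    ?_ ?_ ?_ ?_
  · exact Function.Surjective.comp_left ZMod.intCast_surjective
  · intro f
    constructor
    · intro h
      have h1 : ∀ x, (p : ℤ) ∣ f x := by
        intro x
        rw [← ZMod.intCast_zmod_eq_zero_iff_dvd]
        exact congrFun h x
      choose v hv using h1
      refine ⟨v, ?_⟩
      funext x
      rw [Pi.smul_apply, hv x, nsmul_eq_mul]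
    · rintro ⟨v, rfl⟩
      funext x
      show (((p • v) x : ℤ) : ZMod p) = 0
      rw [Pi.smul_apply, nsmul_eq_mul]
      simp
  · intro f hf
    funext x
    have h1 := congrFun hf x
    rw [Pi.smul_apply, nsmul_eq_mul, Pi.zero_apply, mul_eq_zero] at h1
    rcases h1 with h1 | h1
    · exact absurd (by exact_mod_cast h1) hp
    · exact h1
  · intro g f
    rfl

/-- `hh ℤ = e 𝔽_p` (trivial actions). -/
theorem hh_trivial (he : IsAdditive e) :
    hh p e ℤ (Representation.trivial ℤ G ℤ) = e (ZMod p) (Representation.trivial (ZMod p) G (ZMod p)) := by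
  have hp : p ≠ 0 := (Fact.out : p.Prime).ne_zero
  refine HPerm_hh_eq he (Representation.trivial ℤ G ℤ) (Representation.trivial (ZMod p) G (ZMod p))
    (Int.castAddHom (ZMod p)) ZMod.intCast_surjective ?_ ?_ ?_
  · intro u
    show ((u : ℤ) : ZMod p) = 0 ↔ _
    rw [ZMod.intCast_zmod_eq_zero_iff_dvd]
    constructor
    · rintro ⟨v, rfl⟩
      exact ⟨v, by rw [nsmul_eq_mul]⟩
    · rintro ⟨v, rfl⟩
      exact ⟨v, by rw [nsmul_eq_mul]⟩
  · intro u hu
    rw [nsmul_eq_mul, mul_eq_zero] at hu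
    rcases hu with h1 | h1
    · exact absurd (by exact_mod_cast h1) hp
    · exact h1
  · intro g u
    rfl

end Fermat.Agent.S56.G2
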