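/-
S56 (G2)/(R), leaf C2: from a `ℚ[Γ]`-isomorphism `ℚ[X] ≃ ℚ[Y]` to an injective `ℤ[Γ]`-map `ℤ[X] → ℤ[Y]` with finite cokernel.
Mathlib only.
-/
import Fermat.Agent.S56.G2.Rep.Defs

set_option autoImplicit false

namespace Fermat.Agent.S56.G2

open Module

/-- a common denominator for a finite matrix of rationals. -/
theorem IntMap_exists_den {X Y : Type} [Fintype X] [Fintype Y] (c : X → Y → ℚ) :
    ∃ (D : ℕ) (m : X → Y → ℤ), D ≠ 0 ∧ ∀ x y, ((m x y : ℤ) : ℚ) = D * c x y := by
  classical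
  set D : ℕ := ∏ x, ∏ y, (c x y).den with hD
  have hD0 : D ≠ 0 :=
    Finset.prod_ne_zero_iff.mpr fun x _ => Finset.prod_ne_zero_iff.mpr fun y _ => (c x y).den_ne_zero
  have hdvd : ∀ x y, (c x y).den ∣ D := fun x y =>
    (Finset.dvd_prod_of_mem (fun y => (c x y).den) (Finset.mem_univ y)).trans
      (Finset.dvd_prod_of_mem (fun x => ∏ y, (c x y).den) (Finset.mem_univ x))
  choose k hk using hdvd
  refine ⟨D, fun x y => (k x y : ℤ) * (c x y).num, hD0, fun x y => ?_⟩
  have h1 : ((c x y).den : ℚ) * c x y = (c x y).num := Rat.den_mul_eq_num (c x y)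
  have h2 : (D : ℚ) = ((c x y).den : ℚ) * (k x y : ℚ) := by
    exact_mod_cast hk x y
  rw [h2]
  push_cast
  rw [← h1]
  ring

/-- clearing denominators.  `D := ∏ x, ∏ y, (φ (Pi.single x 1) y).den`, `f a y := ∑ x, a x * (D * φ (Pi.single x 1) y).num`,
so that `((f a y : ℤ) : ℚ) = D * φ (fun x => (a x : ℚ)) y`.  Equivariance and injectivity follow from this formula;
finiteness of the cokernel from `Submodule.finiteQuotientOfFreeOfRankEq`
(`finrank ℤ (range f) = card X = card Y`, `LinearMap.finrank_range_of_inj`, `φ.finrank_eq`). -/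
theorem exists_int_map {Γ : Type} [Group Γ] {X Y : Type} [Finite X] [Finite Y] [MulAction Γ X]
    [MulAction Γ Y] (φ : (X → ℚ) ≃ₗ[ℚ] (Y → ℚ))
    (hφ : ∀ (g : Γ) a, φ (permRep ℚ X g a) = permRep ℚ Y g (φ a)) :
    ∃ f : (X → ℤ) →ₗ[ℤ] (Y → ℤ), (∀ (g : Γ) a, f (permRep ℤ X g a) = permRep ℤ Y g (f a)) ∧
      Function.Injective f ∧ Finite ((Y → ℤ) ⧸ LinearMap.range f) := by
  classical
  cases nonempty_fintype X
  cases nonempty_fintype Y
  obtain ⟨D, m, hD0, hm⟩ := IntMap_exists_den (fun x y => φ (Pi.single x 1) y)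
  let f : (X → ℤ) →ₗ[ℤ] (Y → ℤ) :=
    { toFun := fun a y => ∑ x, a x * m x y
      map_add' := fun a b => by
        funext y
        simp only [Pi.add_apply, add_mul, Finset.sum_add_distrib]
      map_smul' := fun c a => by
        funext y
        simp only [Pi.smul_apply, smul_eq_mul, RingHom.id_apply, Finset.mul_sum, mul_assoc] }
  have hf : ∀ (a : X → ℤ) (y : Y), ((f a y : ℤ) : ℚ) = D * φ (fun x => (a x : ℚ)) y := by
    intro a y
    have h1 : (fun x => (a x : ℚ)) = ∑ x, (a x : ℚ) • (Pi.single x 1 : X → ℚ) := by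
      funext x'
      rw [Finset.sum_apply]
      simp only [Pi.smul_apply, Pi.single_apply, smul_eq_mul, mul_ite, mul_one, mul_zero]
      rw [Finset.sum_ite_eq]
      simp
    rw [h1, map_sum, Finset.sum_apply, Finset.mul_sum]
    change ((∑ x, a x * m x y : ℤ) : ℚ) = _
    rw [Int.cast_sum]
    refine Finset.sum_congr rfl fun x _ => ?_
    rw [map_smul, Pi.smul_apply, smul_eq_mul, Int.cast_mul, hm]
    ring
  have hDQ : (D : ℚ) ≠ 0 := by exact_mod_cast hD0
  have hinj : Function.Injective f := by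
    rw [injective_iff_map_eq_zero]
    intro a ha
    have h1 : φ (fun x => (a x : ℚ)) = 0 := by
      funext y
      have h2 := hf a y
      rw [ha, Pi.zero_apply, Int.cast_zero] at h2
      exact (mul_eq_zero.mp h2.symm).resolve_left hDQ
    have h3 : (fun x => (a x : ℚ)) = 0 := φ.map_eq_zero_iff.mp h1
    funext x
    have h4 : ((a x : ℤ) : ℚ) = 0 := congrFun h3 x
    exact Int.cast_eq_zero.mp h4
  refine ⟨f, fun g a => ?_, hinj, ?_⟩
  · funext y
    apply Int.cast_injective (α := ℚ)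
    rw [hf, permRep_apply, hf]
    have h1 : (fun x => ((permRep ℤ X g a x : ℤ) : ℚ)) = permRep ℚ X g (fun x => (a x : ℚ)) := by
      funext x
      rw [permRep_apply, permRep_apply]
    rw [h1, hφ, permRep_apply]
  · apply Submodule.finiteQuotientOfFreeOfRankEq
    rw [LinearMap.finrank_range_of_inj hinj, Module.finrank_fintype_fun_eq_card,
      Module.finrank_fintype_fun_eq_card]
    have h1 := φ.finrank_eq
    rwa [Module.finrank_fintype_fun_eq_card, Module.finrank_fintype_fun_eq_card] at h1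

end Fermat.Agent.S56.G2
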