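/-
S56 (G2)/(R), leaf C0: over a field in which `|Γ|` is invertible, a finite dimensional representation is determined
by the numbers `dim Hom_Γ(M, V)`.  Mathlib only.
-/
import Mathlib

set_option autoImplicit false

namespace Fermat.Agent.S56.G2

open Module Representation

section semiCancel

variable {k Γ : Type} [Field k] [Group Γ]
  {M N I : Type} [AddCommGroup M] [AddCommGroup N] [AddCommGroup I] [Module k M] [Module k N]
  [Module k I]
  {ρ : Representation k Γ M} {σ : Representation k Γ N} {τ : Representation k Γ I}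

theorem sc_exists_retraction [Finite Γ] [NeZero (Nat.card Γ : k)]
    (i : σ.IntertwiningMap ρ) (hi : Function.Injective i) :
    ∃ π : ρ.IntertwiningMap σ, ∀ x, π (i x) = x := by
  obtain ⟨g, hg⟩ := IsSemisimpleModule.extension_property
    (IntertwiningMap.equivLinearMapAsModule σ ρ i) hi LinearMap.id
  exact ⟨(IntertwiningMap.equivLinearMapAsModule ρ σ).symm g, fun x => congr($hg x)⟩

theorem sc_exists_section [Finite Γ] [NeZero (Nat.card Γ : k)]
    (f : ρ.IntertwiningMap σ) (hf : Function.Surjective f) :
    ∃ s : σ.IntertwiningMap ρ, ∀ x, f (s x) = x := by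
  obtain ⟨g, hg⟩ := IsSemisimpleModule.lifting_property
    (IntertwiningMap.equivLinearMapAsModule ρ σ f) hf LinearMap.id
  exact ⟨(IntertwiningMap.equivLinearMapAsModule σ ρ).symm g, fun x => congr($hg x)⟩

/-- `Hom_Γ` is finite dimensional. -/
theorem sc_finite_hom [Module.Finite k M] [Module.Finite k N] :
    Module.Finite k (ρ.IntertwiningMap σ) := by
  let F : ρ.IntertwiningMap σ →ₗ[k] (M →ₗ[k] N) :=
    { toFun := fun f => f.toLinearMap
      map_add' := fun _ _ => rfl
      map_smul' := fun _ _ => rfl }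
  exact Module.Finite.of_injective F (IntertwiningMap.toLinearMap_injective ρ σ)

/-- the representation on the kernel of an intertwining map. -/
def scRep (π : ρ.IntertwiningMap τ) : Representation k Γ (LinearMap.ker π.toLinearMap) :=
  π.ker.toRepresentation

theorem scRep_coe (π : ρ.IntertwiningMap τ) (g : Γ) (x : LinearMap.ker π.toLinearMap) :
    ((scRep π g x : LinearMap.ker π.toLinearMap) : M) = ρ g x := rfl

/-- the inclusion of the kernel. -/
def scJ (π : ρ.IntertwiningMap τ) : (scRep π).IntertwiningMap ρ where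
  toLinearMap := (LinearMap.ker π.toLinearMap).subtype
  isIntertwining' g := by ext x; rfl

theorem scJ_apply (π : ρ.IntertwiningMap τ) (x : LinearMap.ker π.toLinearMap) :
    scJ π x = (x : M) := rfl

/-- the projection to the kernel. -/
def scKap (π : ρ.IntertwiningMap τ) (ι : τ.IntertwiningMap ρ) (h : ∀ x, π (ι x) = x) :
    ρ.IntertwiningMap (scRep π) where
  toLinearMap := LinearMap.codRestrict _ (LinearMap.id - ι.toLinearMap ∘ₗ π.toLinearMap)
    (fun m => by simp [h])
  isIntertwining' g := by
    ext m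
    simp [scRep_coe, IntertwiningMap.isIntertwining]

theorem scKap_coe (π : ρ.IntertwiningMap τ) (ι : τ.IntertwiningMap ρ) (h : ∀ x, π (ι x) = x)
    (m : M) : ((scKap π ι h m : LinearMap.ker π.toLinearMap) : M) = m - ι (π m) := rfl

theorem scKap_iota (π : ρ.IntertwiningMap τ) (ι : τ.IntertwiningMap ρ) (h : ∀ x, π (ι x) = x)
    (x : I) : scKap π ι h (ι x) = 0 := by
  apply Subtype.ext
  rw [scKap_coe, h, sub_self]; rfl

theorem sc_pi_coe (π : ρ.IntertwiningMap τ) (x : LinearMap.ker π.toLinearMap) :
    π (x : M) = 0 := x.2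

theorem scKap_coe_self (π : ρ.IntertwiningMap τ) (ι : τ.IntertwiningMap ρ) (h : ∀ x, π (ι x) = x)
    (x : LinearMap.ker π.toLinearMap) : scKap π ι h (x : M) = x := by
  apply Subtype.ext
  rw [scKap_coe, sc_pi_coe, map_zero, sub_zero]

/-- `Hom(M, V) = Hom(I, V) × Hom(ker π, V)`. -/
def scHomEquiv (π : ρ.IntertwiningMap τ) (ι : τ.IntertwiningMap ρ) (h : ∀ x, π (ι x) = x) :
    ρ.IntertwiningMap σ ≃ₗ[k] (τ.IntertwiningMap σ × (scRep π).IntertwiningMap σ) where
  toFun F := (F.comp ι, F.comp (scJ π))
  map_add' F G := by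
    ext x <;> rfl
  map_smul' c F := by
    ext x <;> rfl
  invFun ab := ab.1.comp π + ab.2.comp (scKap π ι h)
  left_inv F := by
    ext m
    change F (ι (π m)) + F ((scKap π ι h m : LinearMap.ker π.toLinearMap) : M) = F m
    rw [scKap_coe, ← map_add, add_sub_cancel]
  right_inv ab := by
    ext x
    · change ab.1 (π (ι x)) + ab.2 (scKap π ι h (ι x)) = ab.1 x
      rw [h, scKap_iota, map_zero, add_zero]
    · change ab.1 (π (x : M)) + ab.2 (scKap π ι h (x : M)) = ab.2 x
      rw [sc_pi_coe, scKap_coe_self, map_zero, zero_add]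

theorem sc_finrank_hom [Module.Finite k M] [Module.Finite k N] [Module.Finite k I]
    (π : ρ.IntertwiningMap τ) (ι : τ.IntertwiningMap ρ) (h : ∀ x, π (ι x) = x) :
    finrank k (ρ.IntertwiningMap σ) =
      finrank k (τ.IntertwiningMap σ) + finrank k ((scRep π).IntertwiningMap σ) := by
  have : Module.Finite k (τ.IntertwiningMap σ) := sc_finite_hom
  have : Module.Finite k ((scRep π).IntertwiningMap σ) := sc_finite_hom
  rw [(scHomEquiv (σ := σ) π ι h).finrank_eq, Module.finrank_prod]

/-- gluing a map between the kernels. -/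
def scGlue {M' : Type} [AddCommGroup M'] [Module k M'] {ρ' : Representation k Γ M'}
    (π : ρ.IntertwiningMap τ) (ι : τ.IntertwiningMap ρ) (h : ∀ x, π (ι x) = x)
    (π' : ρ'.IntertwiningMap τ) (ι' : τ.IntertwiningMap ρ')
    (a : LinearMap.ker π.toLinearMap →ₗ[k] LinearMap.ker π'.toLinearMap) : M →ₗ[k] M' :=
  ι'.toLinearMap ∘ₗ π.toLinearMap +
    (LinearMap.ker π'.toLinearMap).subtype ∘ₗ a ∘ₗ (scKap π ι h).toLinearMap

theorem scGlue_apply {M' : Type} [AddCommGroup M'] [Module k M'] {ρ' : Representation k Γ M'}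
    (π : ρ.IntertwiningMap τ) (ι : τ.IntertwiningMap ρ) (h : ∀ x, π (ι x) = x)
    (π' : ρ'.IntertwiningMap τ) (ι' : τ.IntertwiningMap ρ')
    (a : LinearMap.ker π.toLinearMap →ₗ[k] LinearMap.ker π'.toLinearMap) (m : M) :
    scGlue π ι h π' ι' a m = ι' (π m) + (a (scKap π ι h m) : M') := rfl

theorem scGlue_glue {M' : Type} [AddCommGroup M'] [Module k M'] {ρ' : Representation k Γ M'}
    (π : ρ.IntertwiningMap τ) (ι : τ.IntertwiningMap ρ) (h : ∀ x, π (ι x) = x)
    (π' : ρ'.IntertwiningMap τ) (ι' : τ.IntertwiningMap ρ') (h' : ∀ x, π' (ι' x) = x)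
    (a : LinearMap.ker π.toLinearMap →ₗ[k] LinearMap.ker π'.toLinearMap)
    (b : LinearMap.ker π'.toLinearMap →ₗ[k] LinearMap.ker π.toLinearMap)
    (hab : ∀ x, b (a x) = x) (m : M) :
    scGlue π' ι' h' π ι b (scGlue π ι h π' ι' a m) = m := by
  rw [scGlue_apply, scGlue_apply, map_add π', map_add (scKap π' ι' h'), h', sc_pi_coe, scKap_iota,
    scKap_coe_self, add_zero, zero_add, hab, scKap_coe, add_sub_cancel]

theorem scGlue_equivariant {M' : Type} [AddCommGroup M'] [Module k M']
    {ρ' : Representation k Γ M'}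
    (π : ρ.IntertwiningMap τ) (ι : τ.IntertwiningMap ρ) (h : ∀ x, π (ι x) = x)
    (π' : ρ'.IntertwiningMap τ) (ι' : τ.IntertwiningMap ρ')
    (a : LinearMap.ker π.toLinearMap →ₗ[k] LinearMap.ker π'.toLinearMap)
    (ha : ∀ g x, a (scRep π g x) = scRep π' g (a x)) (g : Γ) (m : M) :
    scGlue π ι h π' ι' a (ρ g m) = ρ' g (scGlue π ι h π' ι' a m) := by
  rw [scGlue_apply, scGlue_apply, map_add, IntertwiningMap.isIntertwining,
    IntertwiningMap.isIntertwining, IntertwiningMap.isIntertwining, ha, scRep_coe]

theorem sc_main [Finite Γ] [NeZero (Nat.card Γ : k)] (n : ℕ) :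
    ∀ (M M' : Type) [AddCommGroup M] [AddCommGroup M'] [Module k M] [Module k M']
      [Module.Finite k M] [Module.Finite k M']
      (ρ : Representation k Γ M) (ρ' : Representation k Γ M'), finrank k M = n →
      (∀ (V : Type) [AddCommGroup V] [Module k V] [Module.Finite k V] (σ : Representation k Γ V),
        finrank k (ρ.IntertwiningMap σ) = finrank k (ρ'.IntertwiningMap σ)) →
      ∃ φ : M ≃ₗ[k] M', ∀ g m, φ (ρ g m) = ρ' g (φ m) := by
  induction n using Nat.strong_induction_on with
  | _ n ih =>
    intro M M' _ _ _ _ _ _ ρ ρ' hn h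
    by_cases hM : Subsingleton M
    · have h1 : Subsingleton (ρ.IntertwiningMap ρ') :=
        ⟨fun a b => by ext m; rw [Subsingleton.elim m 0]; simp⟩
      have h2 := h M' ρ'
      rw [Module.finrank_zero_of_subsingleton] at h2
      have : Module.Finite k (ρ'.IntertwiningMap ρ') := sc_finite_hom
      have h3 : Subsingleton (ρ'.IntertwiningMap ρ') := Module.finrank_zero_iff.1 h2.symm
      have h4 : Subsingleton M' := ⟨fun x y => by
        have e := Subsingleton.elim (IntertwiningMap.id ρ') 0
        have ex : x = 0 := congr($e x)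
        have ey : y = 0 := congr($e y)
        rw [ex, ey]⟩
      exact ⟨LinearEquiv.ofSubsingleton M M', fun g m => Subsingleton.elim _ _⟩
    · rw [not_subsingleton_iff_nontrivial] at hM
      have : Module.Finite k (ρ.IntertwiningMap ρ) := sc_finite_hom
      have : Module.Finite k (ρ'.IntertwiningMap ρ) := sc_finite_hom
      have h1 : 0 < finrank k (ρ.IntertwiningMap ρ) := by
        rw [Module.finrank_pos_iff_exists_ne_zero]
        obtain ⟨x, hx⟩ := exists_ne (0 : M)
        exact ⟨IntertwiningMap.id ρ, fun e => hx congr($e x)⟩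
      rw [h M ρ, Module.finrank_pos_iff_exists_ne_zero] at h1
      obtain ⟨f, hf⟩ := h1
      -- the image of `f`
      let τ : Representation k Γ (LinearMap.range f.toLinearMap) := f.range.toRepresentation
      let i : τ.IntertwiningMap ρ :=
        { toLinearMap := (LinearMap.range f.toLinearMap).subtype
          isIntertwining' := fun g => by ext x; rfl }
      let f' : ρ'.IntertwiningMap τ :=
        { toLinearMap := f.toLinearMap.rangeRestrict
          isIntertwining' := fun g => by
            ext x
            exact f.isIntertwining _ _ g x }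
      obtain ⟨π, hπ⟩ := sc_exists_retraction i (Submodule.subtype_injective _)
      obtain ⟨s, hs⟩ := sc_exists_section f' f.toLinearMap.surjective_rangeRestrict
      have hlt : finrank k (LinearMap.ker π.toLinearMap) < n := by
        have e1 := LinearMap.finrank_range_add_finrank_ker π.toLinearMap
        have e2 : LinearMap.range π.toLinearMap = ⊤ :=
          LinearMap.range_eq_top.2 fun x => ⟨i x, hπ x⟩
        rw [e2, finrank_top, hn] at e1
        have e3 : 0 < finrank k (LinearMap.range f.toLinearMap) := by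
          rw [Module.finrank_pos_iff_exists_ne_zero]
          by_contra hcon
          push Not at hcon
          apply hf
          ext x
          exact congrArg Subtype.val (hcon ⟨f x, ⟨x, rfl⟩⟩)
        omega
      obtain ⟨φ₁, hφ₁⟩ := ih _ hlt (LinearMap.ker π.toLinearMap) (LinearMap.ker f'.toLinearMap)
        (scRep π) (scRep f') rfl (by
          intro V _ _ _ σ
          have a1 := sc_finrank_hom (σ := σ) π i hπ
          have a2 := sc_finrank_hom (σ := σ) f' s hs
          have a3 := h V σ
          omega)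
      refine ⟨LinearEquiv.ofLinearMap (scGlue π i hπ f' s φ₁.toLinearMap)
        (scGlue f' s hs π i φ₁.symm.toLinearMap) ?_ ?_, ?_⟩
      · ext m
        exact scGlue_glue f' s hs π i hπ _ _ (fun x => φ₁.apply_symm_apply x) m
      · ext m
        exact scGlue_glue π i hπ f' s hs _ _ (fun x => φ₁.symm_apply_apply x) m
      · intro g m
        exact scGlue_equivariant π i hπ f' s φ₁.toLinearMap hφ₁ g m

end semiCancel

/-- **Semisimple modules are determined by Hom-dimensions.**
Strong induction on `finrank k M`, generalising `M, M'` (all in `Type`).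
* `finrank M = 0`: `Hom(M, M') = 0`, so `finrank Hom(M', M') = 0`, so `id = 0`, `M' = 0`.
* otherwise choose a nonzero invariant subspace `S ≤ M` of minimal dimension.  Maschke (averaging a `k`-linear
  retraction; Mathlib: `Representation.IsSemisimpleRepresentation` instance in `RepresentationTheory/Maschke.lean`,
  `MonoidAlgebra.exists_leftInverse_of_injective`, `MonoidAlgebra.Submodule.exists_isCompl`; or 30 lines by hand:
  `r' = |Γ|⁻¹ ∑ g, ρ g ∘ r ∘ ρ g⁻¹`) gives an equivariant retraction `M → S`, so `Hom(M, S) ≠ 0`, hence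
  `Hom(M', S) ≠ 0`; a nonzero `f : M' → S` is surjective by minimality of `S`.  By Maschke again
  `M ≃ S × M₁`, `M' ≃ S × M₁'` equivariantly (`M₁ = ker` of the retraction, `M₁' = ker f`), and
  `Hom(S × M₁, V) ≃ Hom(S, V) × Hom(M₁, V)` gives the hypothesis for `(M₁, M₁')`; `finrank M₁ < finrank M`. -/
theorem exists_equiv_of_finrank_hom_eq {k Γ : Type} [Field k] [Group Γ] [Finite Γ]
    [NeZero (Nat.card Γ : k)]
    {M M' : Type} [AddCommGroup M] [AddCommGroup M'] [Module k M] [Module k M']
    [Module.Finite k M] [Module.Finite k M']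
    (ρ : Representation k Γ M) (ρ' : Representation k Γ M')
    (h : ∀ (V : Type) [AddCommGroup V] [Module k V] [Module.Finite k V] (σ : Representation k Γ V),
      finrank k (ρ.IntertwiningMap σ) = finrank k (ρ'.IntertwiningMap σ)) :
    ∃ φ : M ≃ₗ[k] M', ∀ g m, φ (ρ g m) = ρ' g (φ m) :=
  sc_main _ M M' ρ ρ' rfl h

end Fermat.Agent.S56.G2
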