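/-
S56 (G2)/(R), leaf C1: finite `Γ`-sets with the same numbers of fixed points have the same `e (𝔽_p[X])`.
Mathlib only (+ the statements of `SemiCancel`, `HFinite`).
-/
import Fermat.Agent.S56.G2.Rep.SemiCancel
import Fermat.Agent.S56.G2.Rep.HFinite
import Fermat.Agent.S56.G2.Rep.HPerm
import Fermat.Agent.S56.G2.Rep.IntMap

set_option autoImplicit false

namespace Fermat.Agent.S56.G2

open Module

/-- equal characters ⇒ isomorphic (characteristic `0`).
(`Representation.card_inv_mul_sum_char_mul_char_eq_finrank` computes `finrank (IntertwiningMap ρ σ)` from the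
characters `Representation.character ρ g = trace (ρ g)`; then `exists_equiv_of_finrank_hom_eq`.) -/
theorem exists_equiv_of_trace_eq {Γ : Type} [Group Γ] [Finite Γ]
    {M M' : Type} [AddCommGroup M] [AddCommGroup M'] [Module ℚ M] [Module ℚ M']
    [Module.Finite ℚ M] [Module.Finite ℚ M']
    (ρ : Representation ℚ Γ M) (ρ' : Representation ℚ Γ M')
    (h : ∀ g, LinearMap.trace ℚ M (ρ g) = LinearMap.trace ℚ M' (ρ' g)) :
    ∃ φ : M ≃ₗ[ℚ] M', ∀ g m, φ (ρ g m) = ρ' g (φ m) := by
  have := Fintype.ofFinite Γ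
  have hcard : (Nat.card Γ : ℚ) ≠ 0 := Nat.cast_ne_zero.2 Nat.card_pos.ne'
  have : NeZero (Nat.card Γ : ℚ) := ⟨hcard⟩
  have : Invertible (Nat.card Γ : ℚ) := invertibleOfNonzero hcard
  refine exists_equiv_of_finrank_hom_eq ρ ρ' fun V _ _ _ σ => ?_
  have h1 := Representation.card_inv_mul_sum_char_mul_char_eq_finrank ρ σ
  have h2 := Representation.card_inv_mul_sum_char_mul_char_eq_finrank ρ' σ
  have h3 : ∀ g, ρ.character g = ρ'.character g := h
  have h4 : (finrank ℚ (ρ.IntertwiningMap σ) : ℚ) = finrank ℚ (ρ'.IntertwiningMap σ) := by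
    rw [← h1, ← h2]
    simp only [h3]
  exact_mod_cast h4

/-- the character of a permutation module
(`LinearMap.trace_eq_matrix_trace ℚ (Pi.basisFun ℚ X)`; the diagonal entry at `x` is `1` if `g⁻¹ • x = x`, else `0`). -/
theorem trace_permRep {Γ : Type} [Group Γ] (X : Type) [Finite X] [MulAction Γ X] (g : Γ) :
    LinearMap.trace ℚ (X → ℚ) (permRep ℚ X g) = (Nat.card (MulAction.fixedBy X g) : ℚ) := by
  classical
  have := Fintype.ofFinite X
  rw [LinearMap.trace_eq_matrix_trace ℚ (Pi.basisFun ℚ X), Matrix.trace]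
  have hdiag : ∀ x : X, Matrix.diag (LinearMap.toMatrix (Pi.basisFun ℚ X) (Pi.basisFun ℚ X)
      (permRep ℚ X g)) x = if g • x = x then 1 else 0 := by
    intro x
    rw [Matrix.diag_apply, LinearMap.toMatrix_apply, Pi.basisFun_apply, Pi.basisFun_repr,
      permRep_apply, Pi.single_apply]
    refine if_congr ?_ rfl rfl
    rw [inv_smul_eq_iff, eq_comm]
  rw [Finset.sum_congr rfl fun x _ => hdiag x, Finset.sum_boole, Nat.card_eq_fintype_card,
    Fintype.card_subtype]
  rfl

/-- **Main result of the leaf** (assembly of the three lemmas above, `hh_eq_of_injective`, `hh_permRep`). -/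
theorem IsAdditive.permRep_eq_of_card_fixedBy {p : ℕ} [Fact p.Prime] {Γ : Type} [Group Γ] [Finite Γ]
    {e : Inv (ZMod p) Γ} (he : IsAdditive e) {X Y : Type} [Finite X] [Finite Y] [MulAction Γ X]
    [MulAction Γ Y]
    (h : ∀ g : Γ, Nat.card (MulAction.fixedBy X g) = Nat.card (MulAction.fixedBy Y g)) :
    e (X → ZMod p) (permRep (ZMod p) X) = e (Y → ZMod p) (permRep (ZMod p) Y) := by
  obtain ⟨φ, hφ⟩ := exists_equiv_of_trace_eq (permRep ℚ X) (permRep ℚ Y (G := Γ)) (fun g => by
    rw [trace_permRep, trace_permRep, h g])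
  obtain ⟨f, hf, hinj, hfin⟩ := exists_int_map φ hφ
  rw [← hh_permRep he X, ← hh_permRep he Y]
  exact hh_eq_of_injective he _ _ f hf hinj hfin

end Fermat.Agent.S56.G2
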