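/-
S56 (G2)/(R), leaf A2: `Fun(⨆ X_i, W)` and additive invariants.  Mathlib only.
-/
import Fermat.Agent.S56.G2.Rep.AddBasic

set_option autoImplicit false

namespace Fermat.Agent.S56.G2

variable {k G : Type} [Field k] [Group G] {e : Inv k G}

/-- an equivariant bijection of `G`-sets does not change `e (Fun(X, W))`
(`LinearEquiv.funCongrLeft` + `IsAdditive.congr`). -/
theorem IsAdditive.funRep_congr (he : IsAdditive e) {X Y : Type} [Finite X] [MulAction G X]
    [MulAction G Y] (φ : X ≃ Y) (hφ : ∀ (g : G) x, φ (g • x) = g • φ x)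
    {W : Type} [AddCommGroup W] [Module k W] [Module.Finite k W] (ρ : Representation k G W) :
    e (X → W) (funRep X ρ) = e (Y → W) (funRep Y ρ) := by
  refine he.congr (funRep X ρ) (funRep Y ρ) (LinearEquiv.funCongrLeft k W φ.symm) ?_
  intro g f
  funext y
  have h1 : φ.symm (g⁻¹ • y) = g⁻¹ • φ.symm y := by
    rw [Equiv.symm_apply_eq, hφ, Equiv.apply_symm_apply]
  show ρ g (f (g⁻¹ • φ.symm y)) = ρ g (f (φ.symm (g⁻¹ • y)))
  rw [h1]

/-- the functions on `Σ i, X i` supported on the `X i`, `i ∈ s`. -/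
def Sigma_P {ι : Type} (X : ι → Type) (W : Type) [AddCommGroup W] [Module k W] (s : Finset ι) :
    Submodule k ((Σ i, X i) → W) where
  carrier := {f | ∀ i ∉ s, ∀ x, f ⟨i, x⟩ = 0}
  zero_mem' := fun _ _ _ => rfl
  add_mem' := fun {a b} ha hb i hi x => by
    rw [Pi.add_apply, ha i hi x, hb i hi x, add_zero]
  smul_mem' := fun c a ha i hi x => by
    rw [Pi.smul_apply, ha i hi x, smul_zero]

theorem Sigma_P_le_comap {ι : Type} (X : ι → Type) [∀ i, MulAction G (X i)]
    {W : Type} [AddCommGroup W] [Module k W] (ρ : Representation k G W) (s : Finset ι) (g : G) :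
    Sigma_P (k := k) X W s ≤ (Sigma_P (k := k) X W s).comap (funRep (Σ i, X i) ρ g) := by
  intro f hf i hi x
  show ρ g (f (g⁻¹ • (⟨i, x⟩ : Σ i, X i))) = 0
  rw [Sigma.smul_mk, hf i hi, map_zero]

/-- **Additivity over disjoint unions.**
Sketch: for `s : Finset ι` let `P s = {f | ∀ i ∉ s, ∀ x, f ⟨i, x⟩ = 0}` (an invariant submodule of
`(Σ i, X i) → W`); prove `e (P s) = ∑ i ∈ s, e (X i → W)` by `Finset.induction_on`, using the short exact sequence
`0 → P s → P (insert i s) → (X i → W) → 0` (second map: `f ↦ fun x => f ⟨i, x⟩`), `P ∅ = ⊥` (`IsAdditive.zero`) and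
`P univ = ⊤` (`IsAdditive.congr` with `Submodule.topEquiv`).
(Alternative: `Fintype.induction_empty_option` + `funRep_congr`.) -/
theorem IsAdditive.funRep_sigma (he : IsAdditive e) {ι : Type} [Fintype ι] (X : ι → Type)
    [∀ i, Finite (X i)] [∀ i, MulAction G (X i)]
    {W : Type} [AddCommGroup W] [Module k W] [Module.Finite k W] (ρ : Representation k G W) :
    e ((Σ i, X i) → W) (funRep (Σ i, X i) ρ) = ∑ i, e (X i → W) (funRep (X i) ρ) := by
  classical
  have key : ∀ s : Finset ι, e (Sigma_P (k := k) X W s)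
      ((funRep (Σ i, X i) ρ).subrepresentation _ (Sigma_P_le_comap X ρ s)) =
        ∑ i ∈ s, e (X i → W) (funRep (X i) ρ) := by
    intro s
    induction s using Finset.induction_on with
    | empty =>
      have : Subsingleton (Sigma_P (k := k) X W ∅) := by
        refine ⟨fun a b => Subtype.ext ?_⟩
        funext ⟨i, x⟩
        rw [a.2 i (Finset.notMem_empty i) x, b.2 i (Finset.notMem_empty i) x]
      rw [he.zero, Finset.sum_empty]
    | insert i s hi ih =>
      rw [Finset.sum_insert hi, ← ih, add_comm]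
      have hmono : Sigma_P (k := k) X W s ≤ Sigma_P (k := k) X W (insert i s) := by
        intro f hf j hj x
        exact hf j (fun h => hj (Finset.mem_insert_of_mem h)) x
      let q : Sigma_P (k := k) X W (insert i s) →ₗ[k] (X i → W) :=
        { toFun := fun f x => f.1 ⟨i, x⟩
          map_add' := fun _ _ => rfl
          map_smul' := fun _ _ => rfl }
      refine he _ _ _ _ _ _ (Submodule.inclusion hmono) q ?_ ?_
        (Submodule.inclusion_injective hmono) ?_ ?_
      · intro g a
        rfl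
      · intro g b
        rfl
      · intro f
        constructor
        · intro hf
          refine ⟨⟨f.1, fun j hj x => ?_⟩, rfl⟩
          by_cases hji : j = i
          · subst hji
            exact congrFun hf x
          · exact f.2 j (fun h => (Finset.mem_insert.1 h).elim hji hj) x
        · rintro ⟨a, rfl⟩
          funext x
          exact a.2 i hi x
      · intro h
        refine ⟨⟨fun p => if hj : p.1 = i then h (hj ▸ p.2) else 0, fun j hj x => ?_⟩, ?_⟩
        · have hji : j ≠ i := fun h' => hj (h' ▸ Finset.mem_insert_self i s)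
          exact dif_neg hji
        · funext x
          exact dif_pos rfl
  rw [← key Finset.univ]
  symm
  refine he.congr _ _ (LinearEquiv.ofBijective (Sigma_P (k := k) X W Finset.univ).subtype
    ⟨Subtype.val_injective, fun f => ⟨⟨f, fun i hi => absurd (Finset.mem_univ i) hi⟩, rfl⟩⟩) ?_
  intro g a
  rfl

/-- fixed points of a disjoint union. -/
theorem card_fixedBy_sigma {ι : Type} [Fintype ι] (X : ι → Type)
    [∀ i, Finite (X i)] [∀ i, MulAction G (X i)] (g : G) :
    Nat.card (MulAction.fixedBy (Σ i, X i) g) = ∑ i, Nat.card (MulAction.fixedBy (X i) g) := by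
  rw [← Nat.card_sigma]
  refine Nat.card_congr
    { toFun := fun p => ⟨p.1.1, ⟨p.1.2, ?_⟩⟩
      invFun := fun q => ⟨⟨q.1, q.2.1⟩, ?_⟩
      left_inv := fun p => rfl
      right_inv := fun q => rfl }
  · obtain ⟨⟨i, x⟩, hp⟩ := p
    rw [MulAction.mem_fixedBy, Sigma.smul_mk, Sigma.mk.inj_iff] at hp
    exact eq_of_heq hp.2
  · obtain ⟨i, x, hx⟩ := q
    rw [MulAction.mem_fixedBy] at hx
    show g • (⟨i, x⟩ : Σ i, X i) = ⟨i, x⟩
    rw [Sigma.smul_mk, hx]

/-- `Fun(pt, W) = W`. -/
theorem IsAdditive.funRep_top (he : IsAdditive e)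
    {W : Type} [AddCommGroup W] [Module k W] [Module.Finite k W] (ρ : Representation k G W) :
    e (G ⧸ (⊤ : Subgroup G) → W) (funRep (G ⧸ (⊤ : Subgroup G)) ρ) = e W ρ := by
  have hsub : Subsingleton (G ⧸ (⊤ : Subgroup G)) := QuotientGroup.subsingleton_quotient_top
  let _ : Unique (G ⧸ (⊤ : Subgroup G)) := Unique.mk' _
  refine he.congr _ _ (LinearEquiv.funUnique (G ⧸ (⊤ : Subgroup G)) k W) ?_
  intro g f
  show ρ g (f (g⁻¹ • default)) = ρ g (f default)
  rw [Subsingleton.elim (g⁻¹ • (default : G ⧸ (⊤ : Subgroup G))) default]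

theorem card_fixedBy_top (g : G) :
    Nat.card (MulAction.fixedBy (G ⧸ (⊤ : Subgroup G)) g) = 1 := by
  have hsub : Subsingleton (G ⧸ (⊤ : Subgroup G)) := QuotientGroup.subsingleton_quotient_top
  rw [Nat.card_eq_one_iff_unique]
  exact ⟨⟨fun a b => Subtype.ext (Subsingleton.elim _ _)⟩,
    ⟨⟨(QuotientGroup.mk 1 : G ⧸ (⊤ : Subgroup G)), Subsingleton.elim _ _⟩⟩⟩

end Fermat.Agent.S56.G2
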