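/-
S56 (G2)/(R): MAIN THEOREM of the abstract representation theory block (assembly, no own sorry).

`eq_zero_of_cyclic`: an additive invariant `e` of finite dimensional `𝔽_p[Γ]`-modules (`Γ` a finite group) which vanishes on
all `coind_C^Γ N` with `C` cyclic of order prime to `p` vanishes identically.
-/
import Fermat.Agent.S56.G2.Rep.Sigma
import Fermat.Agent.S56.G2.Rep.PermQ
import Fermat.Agent.S56.G2.Rep.Artin
import Fermat.Agent.S56.G2.Rep.PPart
import Fermat.Agent.S56.G2.Rep.Tensor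

set_option autoImplicit false

namespace Fermat.Agent.S56.G2

variable {p : ℕ} [Fact p.Prime] {Γ : Type} [Group Γ] [Finite Γ]

/-- Artin induction for additive invariants: if `e' (𝔽_p[Γ/C]) = 0` for all cyclic `C` then `e' (𝔽_p[Γ/Γ]) = 0`. -/
theorem IsAdditive.permRep_top_eq_zero {e' : Inv (ZMod p) Γ} (he : IsAdditive e')
    (h : ∀ C : Subgroup Γ, IsCyclic C → e' (Γ ⧸ C → ZMod p) (permRep (ZMod p) (Γ ⧸ C)) = 0) :
    e' (Γ ⧸ (⊤ : Subgroup Γ) → ZMod p) (permRep (ZMod p) (Γ ⧸ (⊤ : Subgroup Γ))) = 0 := by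
  obtain ⟨ι, κ, _, _, A, B, n, hn, hA, hB, hfix⟩ := exists_artin Γ
  let A' : Fin n ⊕ ι → Subgroup Γ := Sum.elim (fun _ => ⊤) A
  have key := he.permRep_eq_of_card_fixedBy (X := Σ t, Γ ⧸ A' t) (Y := Σ j, Γ ⧸ B j) (fun g => by
    rw [card_fixedBy_sigma, card_fixedBy_sigma, Fintype.sum_sum_type, ← hfix g]
    congr 1
    calc ∑ a : Fin n, Nat.card (MulAction.fixedBy (Γ ⧸ A' (Sum.inl a)) g)
        = ∑ _a : Fin n, 1 := Finset.sum_congr rfl (fun a _ => card_fixedBy_top g)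
      _ = n := by simp)
  rw [he.funRep_sigma, he.funRep_sigma, Fintype.sum_sum_type] at key
  have k1 : ∑ a : Fin n, e' (Γ ⧸ A' (Sum.inl a) → ZMod p)
      (funRep (Γ ⧸ A' (Sum.inl a)) (Representation.trivial (ZMod p) Γ (ZMod p))) =
      n * e' (Γ ⧸ (⊤ : Subgroup Γ) → ZMod p) (permRep (ZMod p) (Γ ⧸ (⊤ : Subgroup Γ))) := by
    calc _ = ∑ _a : Fin n, e' (Γ ⧸ (⊤ : Subgroup Γ) → ZMod p)
          (permRep (ZMod p) (Γ ⧸ (⊤ : Subgroup Γ))) := rfl
      _ = _ := by simp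
  have k2 : ∑ i : ι, e' (Γ ⧸ A' (Sum.inr i) → ZMod p)
      (funRep (Γ ⧸ A' (Sum.inr i)) (Representation.trivial (ZMod p) Γ (ZMod p))) = 0 :=
    Finset.sum_eq_zero (fun i _ => h (A i) (hA i))
  have k3 : ∑ j : κ, e' (Γ ⧸ B j → ZMod p)
      (funRep (Γ ⧸ B j) (Representation.trivial (ZMod p) Γ (ZMod p))) = 0 :=
    Finset.sum_eq_zero (fun j _ => h (B j) (hB j))
  rw [k1, k2, k3, add_zero] at key
  rcases mul_eq_zero.1 key with h0 | h0
  · exact absurd (Nat.cast_eq_zero.1 h0) hn.ne'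
  · exact h0

/-- **Main theorem of block (R).** -/
theorem eq_zero_of_cyclic {e : Inv (ZMod p) Γ} (he : IsAdditive e)
    (h : ∀ C : Subgroup Γ, IsCyclic C → (Nat.card C).Coprime p →
      ∀ (N : Type) [AddCommGroup N] [Module (ZMod p) N] [Module.Finite (ZMod p) N]
        (ρ : Representation (ZMod p) Γ N), e (coindSub C ρ) (coindRep C ρ) = 0)
    (N : Type) [AddCommGroup N] [Module (ZMod p) N] [Module.Finite (ZMod p) N]
    (ρ : Representation (ZMod p) Γ N) : e N ρ = 0 := by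
  have h1 : ∀ C : Subgroup Γ, IsCyclic C → e (coindSub C ρ) (coindRep C ρ) = 0 := by
    intro C hC
    obtain ⟨C', q, hC', hcop, hq, hqe⟩ := he.coind_cyclic C hC
    have h2 := hqe N ρ
    rw [h C' hC' hcop N ρ] at h2
    rcases mul_eq_zero.1 h2.symm with h0 | h0
    · exact absurd (Nat.cast_eq_zero.1 h0) hq.ne'
    · exact h0
  have h3 := (he.tensor ρ).permRep_top_eq_zero (fun C hC => by
    rw [he.tensor_permRep, he.funRep_quotient]
    exact h1 C hC)
  rwa [he.tensor_permRep, he.funRep_top] at h3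

end Fermat.Agent.S56.G2
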