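/-
S56 (G2)/(R): bridge between `AddFun` (S56/G2/AddFun.lean, helper55's contract) and `Inv`/`IsAdditive`
(S56/G2/Rep/Defs.lean); proof of the contract `ArtinStatement p`.
-/
import Fermat.Agent.S56.G2.AddFun
import Fermat.Agent.S56.G2.Rep.Main

set_option autoImplicit false

namespace Fermat.Agent.S56.G2

variable {k Γ : Type} [Field k] [Group Γ]

open Classical in
/-- an `AddFun` as an `Inv` (junk value `0` on infinite dimensional modules). -/
noncomputable def AddFun.toInv (e : AddFun k Γ) : Inv k Γ := fun Z _ _ ρ =>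
  if h : Module.Finite k Z then e.toFun Z ρ else 0

theorem AddFun.toInv_apply (e : AddFun k Γ) (Z : Type) [AddCommGroup Z] [Module k Z]
    [h : Module.Finite k Z] (ρ : Representation k Γ Z) : e.toInv Z ρ = e.toFun Z ρ := by
  unfold AddFun.toInv
  rw [dif_pos h]

theorem AddFun.isAdditive_toInv (e : AddFun k Γ) : IsAdditive e.toInv := by
  intro A B C _ _ _ _ _ _ _ _ _ ρA ρB ρC i q hi hq hinj hex hsurj
  rw [e.toInv_apply, e.toInv_apply, e.toInv_apply]
  exact e.additive A B C ρA ρB ρC i q hi hq hinj hsurj hex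

/-- an additive `Inv` as an `AddFun`. -/
def IsAdditive.toAddFun {e : Inv k Γ} (he : IsAdditive e) : AddFun k Γ where
  toFun Z _ _ _ ρ := e Z ρ
  additive A B C _ _ _ _ _ _ _ _ _ ρA ρB ρC i q hi hq hinj hsurj hex :=
    he A B C ρA ρB ρC i q hi hq hinj hex hsurj

/-- **The contract (R).** -/
theorem artinStatement (p : ℕ) [Fact p.Prime] : ArtinStatement p := by
  intro Γ _ _ e h N _ _ _ ρ
  rw [← e.toInv_apply]
  refine eq_zero_of_cyclic e.isAdditive_toInv (fun C hC hcop N' _ _ _ ρ' => ?_) N ρ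
  have h1 := h C hC (fun hd => by
    have hp : p.Prime := Fact.out
    exact hp.one_lt.ne' (Nat.eq_one_of_dvd_coprimes hcop hd (dvd_refl p))) N' ρ'
  rw [e.toInv_apply]
  exact h1

end Fermat.Agent.S56.G2
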