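/-
S56 (G2)/(R), leaf HD: `Z ↦ dim Hom_G(B, Z)` is an additive invariant when `|G|` is invertible in `k` (Maschke).
-/
import Fermat.Agent.S56.G2.Rep.AddBasic
import Fermat.Agent.PT.Coh.Coind

set_option autoImplicit false

namespace Fermat.Agent.S56.G2

open Module

variable {k G : Type} [Field k] [Group G]

/-- `Z ↦ dim_k Hom_G(B, Z)` (`PT.EHom σ ρ` = equivariant linear maps, a submodule of `B →ₗ[k] Z`). -/
noncomputable def homInv {B : Type} [AddCommGroup B] [Module k B] (σ : Representation k G B) :
    Inv k G := fun _ _ _ ρ => (finrank k (PT.EHom σ ρ) : ℤ)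

/-- Maschke averaging: equivariant maps lift along equivariant surjections. -/
theorem HomDim_exists_lift [Finite G] [NeZero (Nat.card G : k)] {B B' C : Type} [AddCommGroup B]
    [Module k B] [AddCommGroup B'] [Module k B'] [AddCommGroup C] [Module k C]
    (σ : Representation k G B) (ρB : Representation k G B') (ρC : Representation k G C)
    (q : B' →ₗ[k] C) (hq : ∀ g b, q (ρB g b) = ρC g (q b)) (hsurj : Function.Surjective q)
    (f : B →ₗ[k] C) (hf : f ∈ PT.EHom σ ρC) : ∃ f' ∈ PT.EHom σ ρB, q ∘ₗ f' = f := by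
  classical
  let _ : Fintype G := Fintype.ofFinite G
  obtain ⟨s, hs⟩ := q.exists_rightInverse_of_surjective (LinearMap.range_eq_top.mpr hsurj)
  have hs' : ∀ c, q (s c) = c := fun c => LinearMap.congr_fun hs c
  have hcard : (Nat.card G : k) ≠ 0 := NeZero.ne _
  let F : B →ₗ[k] B' := (Nat.card G : k)⁻¹ • ∑ g : G, ρB g ∘ₗ s ∘ₗ f ∘ₗ σ g⁻¹
  have hF : ∀ b, F b = (Nat.card G : k)⁻¹ • ∑ g : G, ρB g (s (f (σ g⁻¹ b))) := by
    intro b
    simp only [F, LinearMap.smul_apply, LinearMap.sum_apply, LinearMap.comp_apply]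
  refine ⟨F, fun h b => ?_, ?_⟩
  · rw [hF, hF, map_smul, map_sum]
    congr 1
    rw [← Equiv.sum_comp (Equiv.mulLeft h)]
    refine Finset.sum_congr rfl fun g _ => ?_
    rw [Equiv.coe_mulLeft, map_mul, Module.End.mul_apply, mul_inv_rev, ← Module.End.mul_apply (σ _),
      ← map_mul, inv_mul_cancel_right]
  · apply LinearMap.ext
    intro b
    rw [LinearMap.comp_apply, hF, map_smul, map_sum]
    have h1 : ∀ g : G, q (ρB g (s (f (σ g⁻¹ b)))) = f b := by
      intro g
      rw [hq, hs', hf g⁻¹ b, ← Module.End.mul_apply, ← map_mul, mul_inv_cancel, map_one,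
        Module.End.one_apply]
    rw [Finset.sum_congr rfl fun g _ => h1 g, Finset.sum_const, Finset.card_univ,
      ← Nat.card_eq_fintype_card, ← Nat.cast_smul_eq_nsmul k, smul_smul, inv_mul_cancel₀ hcard,
      one_smul]

/-- For `0 → A → B' → C → 0` the sequence `0 → Hom_G(B, A) → Hom_G(B, B') → Hom_G(B, C) → 0` is exact: left exactness is formal;
surjectivity: let `s` be a `k`-linear section of `q` (`LinearMap.exists_rightInverse_of_surjective`); for `f ∈ Hom_G(B, C)` put
`f' = |G|⁻¹ • ∑ g, ρB' g ∘ s ∘ f ∘ σ g⁻¹`; then `f'` is equivariant and `q ∘ f' = f`.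
Then `finrank` is additive (`LinearMap.finrank_range_add_finrank_ker` for the map `Hom_G(B, B') → Hom_G(B, C)`, whose kernel is the image of the
injective map from `Hom_G(B, A)`). -/
theorem isAdditive_homInv [Finite G] [NeZero (Nat.card G : k)] {B : Type} [AddCommGroup B]
    [Module k B] [Module.Finite k B] (σ : Representation k G B) : IsAdditive (homInv σ) := by
  intro A B' C _ _ _ _ _ _ _ _ _ ρA ρB ρC i q hi hq hinj hex hsurj
  -- the two maps
  let I : PT.EHom σ ρA →ₗ[k] PT.EHom σ ρB :=
    { toFun := fun f => ⟨i ∘ₗ f.1, fun g b => by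
        rw [LinearMap.comp_apply, LinearMap.comp_apply, f.2 g b, hi]⟩
      map_add' := fun f f' => Subtype.ext (LinearMap.comp_add _ _ _)
      map_smul' := fun c f => Subtype.ext (LinearMap.comp_smul _ _ _) }
  let Q : PT.EHom σ ρB →ₗ[k] PT.EHom σ ρC :=
    { toFun := fun f => ⟨q ∘ₗ f.1, fun g b => by
        rw [LinearMap.comp_apply, LinearMap.comp_apply, f.2 g b, hq]⟩
      map_add' := fun f f' => Subtype.ext (LinearMap.comp_add _ _ _)
      map_smul' := fun c f => Subtype.ext (LinearMap.comp_smul _ _ _) }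
  have hI : Function.Injective I := by
    intro f f' hff
    apply Subtype.ext
    apply LinearMap.ext
    intro b
    apply hinj
    exact LinearMap.congr_fun (congrArg Subtype.val hff) b
  have hQ : Function.Surjective Q := by
    intro f
    obtain ⟨f', hf', hqf⟩ := HomDim_exists_lift σ ρB ρC q hq hsurj f.1 f.2
    exact ⟨⟨f', hf'⟩, Subtype.ext hqf⟩
  have hIQ : LinearMap.range I = LinearMap.ker Q := by
    apply le_antisymm
    · rintro _ ⟨f, rfl⟩
      rw [LinearMap.mem_ker]
      apply Subtype.ext
      apply LinearMap.ext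
      intro b
      exact hex.apply_apply_eq_zero (f.1 b)
    · intro f hf
      rw [LinearMap.mem_ker] at hf
      have h0 : ∀ b, f.1 b ∈ LinearMap.range i := by
        intro b
        have h1 : q (f.1 b) = 0 := LinearMap.congr_fun (congrArg Subtype.val hf) b
        exact (hex (f.1 b)).mp h1
      let f' : B →ₗ[k] A :=
        (LinearEquiv.ofInjective i hinj).symm.toLinearMap ∘ₗ (f.1.codRestrict (LinearMap.range i) h0)
      have hf' : ∀ b, i (f' b) = f.1 b := by
        intro b
        have h2 := (LinearEquiv.ofInjective i hinj).apply_symm_apply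
          (f.1.codRestrict (LinearMap.range i) h0 b)
        exact congrArg Subtype.val h2
      refine ⟨⟨f', fun g b => ?_⟩, ?_⟩
      · apply hinj
        rw [hf', hi, hf', f.2 g b]
      · apply Subtype.ext
        apply LinearMap.ext
        intro b
        exact hf' b
  have h1 := LinearMap.finrank_range_add_finrank_ker Q
  rw [LinearMap.range_eq_top.mpr hQ, finrank_top, ← hIQ, LinearMap.finrank_range_of_inj hI] at h1
  show (finrank k (PT.EHom σ ρB) : ℤ) = finrank k (PT.EHom σ ρA) + finrank k (PT.EHom σ ρC)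
  rw [← h1]
  push_cast
  ring

end Fermat.Agent.S56.G2
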