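/-
S56 (G2)/(R), leaf G2: the invariant `Z ↦ e (N ⊗ Z)`.  Mathlib only.
-/
import Fermat.Agent.S56.G2.Rep.AddBasic

set_option autoImplicit false

namespace Fermat.Agent.S56.G2

open Module

variable {k G : Type} [Field k] [Group G] {e : Inv k G}

/-- the invariant `Z ↦ e (N ⊗ Z)`. -/
noncomputable def Inv.tensor (e : Inv k G) {N : Type} [AddCommGroup N] [Module k N] (ρ : Representation k G N) :
    Inv k G := fun Z _ _ σ => e (TensorProduct k N Z) (ρ.tprod σ)

/-- `N ⊗ f` is equivariant if `f` is. -/
theorem Tensor_lTensor_equivariant {N A B : Type} [AddCommGroup N] [Module k N] [AddCommGroup A]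
    [Module k A] [AddCommGroup B] [Module k B] (ρ : Representation k G N)
    (ρA : Representation k G A) (ρB : Representation k G B) (f : A →ₗ[k] B)
    (hf : ∀ g a, f (ρA g a) = ρB g (f a)) (g : G) (x : TensorProduct k N A) :
    (f.lTensor N) ((ρ.tprod ρA) g x) = (ρ.tprod ρB) g ((f.lTensor N) x) := by
  induction x using TensorProduct.induction_on with
  | zero => simp
  | tmul n a => simp [hf]
  | add x y hx hy => rw [map_add, map_add, map_add, map_add, hx, hy]

/-- `N ⊗ -` is exact over a field (`LinearMap.lTensor`, `Module.Flat.lTensor_preserves_injective_linearMap`,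
`lTensor_exact`, `LinearMap.lTensor_surjective`); equivariance on pure tensors (`TensorProduct.induction_on` or
`TensorProduct.ext'`, `Representation.tprod_apply`, `TensorProduct.map_tmul`). -/
theorem IsAdditive.tensor (he : IsAdditive e) {N : Type} [AddCommGroup N] [Module k N]
    [Module.Finite k N] (ρ : Representation k G N) : IsAdditive (e.tensor ρ) := by
  intro A B C _ _ _ _ _ _ _ _ _ ρA ρB ρC i q hi hq hinj hex hsurj
  exact he (TensorProduct k N A) (TensorProduct k N B) (TensorProduct k N C) (ρ.tprod ρA)
    (ρ.tprod ρB) (ρ.tprod ρC) (i.lTensor N) (q.lTensor N)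
    (Tensor_lTensor_equivariant ρ ρA ρB i hi) (Tensor_lTensor_equivariant ρ ρB ρC q hq)
    (Module.Flat.lTensor_preserves_injective_linearMap i hinj) (lTensor_exact N hex hsurj)
    (LinearMap.lTensor_surjective N hsurj)

/-- `N ⊗ k[X] = Fun(X, N)` (`TensorProduct.piScalarRight k k N X`, `n ⊗ f ↦ fun x => f x • n`). -/
theorem IsAdditive.tensor_permRep (he : IsAdditive e) {N : Type} [AddCommGroup N] [Module k N]
    [Module.Finite k N] (ρ : Representation k G N) (X : Type) [Finite X] [MulAction G X] :
    e.tensor ρ (X → k) (permRep k X) = e (X → N) (funRep X ρ) := by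
  classical
  have := Fintype.ofFinite X
  refine he.congr (ρ.tprod (permRep k X)) (funRep X ρ) (TensorProduct.piScalarRight k k N X) ?_
  intro g x
  induction x using TensorProduct.induction_on with
  | zero => simp
  | tmul n f =>
    funext y
    simp [TensorProduct.piScalarRight_apply, TensorProduct.piScalarRightHom_tmul]
  | add x y hx hy => rw [map_add, map_add, map_add, map_add, hx, hy]

end Fermat.Agent.S56.G2
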